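import Fermat.Agent.SmallPrimes.Thirteen

/-!
# The Hauptmoduln of `X₀(5)` and `X₀(7)` on the Tate normal form

`haupt5` and `haupt7` are invariant under doubling the marked point and determine `j` (`j_five`,
`j_seven`).
-/

set_option autoImplicit false

open WeierstrassCurve

namespace Fermat.Agent.SmallPrimes

variable {K : Type*} [Field K]

/-- The Hauptmodul of `X₀(5)`. -/
def haupt5 (b _c : K) : K := (b ^ 2 - 11 * b - 1) / b

/-- The Hauptmodul of `X₀(7)`. -/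
def haupt7 (b c : K) : K :=
  ((b / c) ^ 3 - 8 * (b / c) ^ 2 + 5 * (b / c) + 1) / (b / c * (b / c - 1))

theorem haupt5_next [DecidableEq K] {b c : K} (h : IsOrder 5 b c) :
    haupt5 (nextB b c) (nextC b c) = haupt5 b c := by
  obtain ⟨rfl, hb⟩ := h.eq_of_five
  have hd : den3 (tateCurve c c) c (c * c) = c ^ 2 := by
    simp only [den3, tateCurve]; ring
  have hl : tanSlope (tateCurve c c) c (c * c) = c := by
    rw [tanSlope, hd, div_eq_iff (pow_ne_zero 2 hb)]; simp only [tateCurve]; ring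
  have hA : tanA₂ (tateCurve c c) c (c * c) = c := by
    rw [tanA₂, hl]; simp only [tateCurve]; ring
  simp only [haupt5, nextB, tateB, hA, hd]
  field_simp
  ring

/-- The `j`-invariant as a function of the Hauptmodul of `X₀(5)`. -/
theorem j_five [DecidableEq K] {b c : K} (h : IsOrder 5 b c) :
    (tateCurve b c).c₄ ^ 3 * haupt5 b c
      = (haupt5 b c ^ 2 + 10 * haupt5 b c + 5) ^ 3 * (tateCurve b c).Δ := by
  obtain ⟨rfl, hb⟩ := h.eq_of_five
  rw [c4_tateCurve, Δ_tateCurve]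
  obtain ⟨t, ht⟩ : ∃ t, haupt5 c c = t := ⟨_, rfl⟩
  have hD : c ^ 3 * (16 * c ^ 2 - 8 * c * c ^ 2 - 20 * c * c + c + c * (c - 1) ^ 3)
      = c ^ 6 * t := by
    rw [← ht, haupt5]; field_simp; ring
  have h4 : ((1 - c) ^ 2 - 4 * c) ^ 2 + 24 * c * (1 - c) = c ^ 2 * (t ^ 2 + 10 * t + 5) := by
    rw [← ht, haupt5]; field_simp; ring
  rw [ht, hD, h4]; ring

lemma seven_facts [DecidableEq K] {b c : K} (h : IsOrder 7 b c) :
    ∃ d : K, b = d ^ 2 * (d - 1) ∧ c = d * (d - 1) ∧ d ≠ 0 ∧ d ≠ 1 := by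
  obtain ⟨hb, hc, -, d, hbd, hcd⟩ := h.eq_of_seven
  refine ⟨d, hbd, hcd, ?_, ?_⟩ <;> rintro rfl <;> simp at hcd <;> exact hc hcd

theorem haupt7_next [DecidableEq K] {b c : K} (h : IsOrder 7 b c) :
    haupt7 (nextB b c) (nextC b c) = haupt7 b c := by
  obtain ⟨d, rfl, rfl, hd0, hd1⟩ := seven_facts h
  have h1 : d - 1 ≠ 0 := sub_ne_zero.mpr hd1
  have hd : den3 (tateCurve (d ^ 2 * (d - 1)) (d * (d - 1))) (d ^ 2 * (d - 1))
      (d ^ 2 * (d - 1) * (d * (d - 1))) = d ^ 3 * (d - 1) ^ 2 := by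
    simp only [den3, tateCurve]; ring
  have hl : tanSlope (tateCurve (d ^ 2 * (d - 1)) (d * (d - 1))) (d ^ 2 * (d - 1))
      (d ^ 2 * (d - 1) * (d * (d - 1))) = (d - 1) * (1 + d) := by
    rw [tanSlope, hd, div_eq_iff (mul_ne_zero (pow_ne_zero 3 hd0) (pow_ne_zero 2 h1))]
    simp only [tateCurve]; ring
  have hA : tanA₂ (tateCurve (d ^ 2 * (d - 1)) (d * (d - 1))) (d ^ 2 * (d - 1))
      (d ^ 2 * (d - 1) * (d * (d - 1))) = d * (d - 1) ^ 2 := by
    rw [tanA₂, hl]; simp only [tateCurve]; ring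
  have hB : nextB (d ^ 2 * (d - 1)) (d * (d - 1)) = -((d - 1) ^ 2) / d ^ 3 := by
    rw [nextB, tateB, hA, hd]; field_simp
  have hC : nextC (d ^ 2 * (d - 1)) (d * (d - 1)) = -(d - 1) / d ^ 2 := by
    rw [nextC, tateC, tanA₁, hl, hA, hd]; simp only [tateCurve]; field_simp; ring
  have hq : nextB (d ^ 2 * (d - 1)) (d * (d - 1)) / nextC (d ^ 2 * (d - 1)) (d * (d - 1))
      = (d - 1) / d := by
    rw [hB, hC]; field_simp
  have hq' : d ^ 2 * (d - 1) / (d * (d - 1)) = d := by field_simp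
  simp only [haupt7, hq, hq']
  rw [show (d - 1) / d - 1 = -1 / d by field_simp; ring]
  field_simp
  ring

/-- The `j`-invariant as a function of the Hauptmodul of `X₀(7)`. -/
theorem j_seven [DecidableEq K] {b c : K} (h : IsOrder 7 b c) :
    (tateCurve b c).c₄ ^ 3 * haupt7 b c
      = (haupt7 b c ^ 2 + 13 * haupt7 b c + 49) * (haupt7 b c ^ 2 + 5 * haupt7 b c + 1) ^ 3
        * (tateCurve b c).Δ := by
  obtain ⟨d, rfl, rfl, hd0, hd1⟩ := seven_facts h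
  rw [c4_tateCurve, Δ_tateCurve]
  obtain ⟨t, ht⟩ : ∃ t, haupt7 (d ^ 2 * (d - 1)) (d * (d - 1)) = t := ⟨_, rfl⟩
  have ht' : t = (d ^ 3 - 8 * d ^ 2 + 5 * d + 1) / (d * (d - 1)) := by
    rw [← ht, haupt7, show d ^ 2 * (d - 1) / (d * (d - 1)) = d by field_simp]
  rw [ht]
  have hD : (d ^ 2 * (d - 1)) ^ 3 * (16 * (d ^ 2 * (d - 1)) ^ 2
        - 8 * (d ^ 2 * (d - 1)) * (d * (d - 1)) ^ 2 - 20 * (d ^ 2 * (d - 1)) * (d * (d - 1))
        + d ^ 2 * (d - 1) + d * (d - 1) * (d * (d - 1) - 1) ^ 3)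
      = (d * (d - 1)) ^ 8 * t := by
    rw [ht']; field_simp; ring
  have h4 : ((1 - d * (d - 1)) ^ 2 - 4 * (d ^ 2 * (d - 1))) ^ 2
        + 24 * (d ^ 2 * (d - 1)) * (1 - d * (d - 1))
      = (d ^ 2 - d + 1) * ((d * (d - 1)) ^ 2 * (t ^ 2 + 5 * t + 1)) := by
    rw [ht']; field_simp; ring
  have hq : (d * (d - 1)) ^ 2 * (t ^ 2 + 13 * t + 49) = (d ^ 2 - d + 1) ^ 3 := by
    rw [ht']; field_simp; ring
  rw [hD, h4]
  linear_combination (-(t * (d * (d - 1)) ^ 6 * (t ^ 2 + 5 * t + 1) ^ 3)) * hq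

end Fermat.Agent.SmallPrimes
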