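import Fermat.Agent.SmallPrimes.DescentSeven

/-!
# Rational points on `y² = t(t² + 22t + 125)`, `y² = t(t² + 6t + 13)`, `y² = t(t² - 11t + 32)`

Each is settled by a descent on the square class of `t` (`square_class`); `seven_genus_two` then
handles the genus two curve needed at `p = 7`.
-/

set_option autoImplicit false

namespace Fermat.Agent.SmallPrimes

lemma exists_int_sq_eq_of_rat {m : ℤ} {z : ℚ} (h : z ^ 2 = (m : ℚ)) : ∃ k : ℤ, k ^ 2 = m := by
  obtain ⟨k, hk⟩ := Rat.isSquare_intCast_iff.mp ⟨z, by rw [← h, sq]⟩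
  exact ⟨k, by rw [hk, sq]⟩

/-- The square class of `t` on `y² = t(t² + a₂t + qᵉ)`. -/
lemma square_class {q e : ℕ} (hq : q.Prime) (he : Odd e) {a₂ : ℤ} {t y : ℚ} (ht : 0 < t)
    (h : t * (t ^ 2 + a₂ * t + (q : ℚ) ^ e) = y ^ 2) :
    ∃ u : ℚ, u ≠ 0 ∧ (t = u ^ 2 ∨ (q : ℚ) ^ e / t = u ^ 2) ∧
      ∃ w, u ^ 4 + a₂ * u ^ 2 + (q : ℚ) ^ e = w ^ 2 := by
  suffices hcl : ∃ u : ℚ, u ≠ 0 ∧ (t = u ^ 2 ∨ (q : ℚ) ^ e / t = u ^ 2) by
    obtain ⟨u, hu, hc⟩ := hcl
    refine ⟨u, hu, hc, ?_⟩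
    rcases hc with rfl | hc
    · exact ⟨y / u, by field_simp; linear_combination h⟩
    · have hqe : (q : ℚ) ^ e ≠ 0 := pow_ne_zero _ (by exact_mod_cast hq.ne_zero)
      have htu : t = (q : ℚ) ^ e / u ^ 2 := by rw [← hc]; field_simp
      refine ⟨y * u ^ 3 / (q : ℚ) ^ e, ?_⟩
      rw [htu] at h
      field_simp at h ⊢
      linear_combination h
  set B : ℤ := (t.den : ℤ) with hB
  set A : ℤ := t.num with hA
  have hA0 : 0 < A := Rat.num_pos.mpr ht
  have hB0 : 0 < B := by rw [hB]; exact_mod_cast t.den_pos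
  have hAB : IsCoprime A B := Int.isCoprime_iff_gcd_eq_one.mpr (by
    simpa [Int.gcd, hA, hB] using t.reduced)
  have htAB : t = (A : ℚ) / B := by rw [hA, hB]; exact_mod_cast (t.num_div_den).symm
  set Q : ℤ := A ^ 2 + a₂ * A * B + (q : ℤ) ^ e * B ^ 2 with hQ
  obtain ⟨m, hm⟩ : ∃ m : ℤ, m ^ 2 = A * B * Q := by
    refine exists_int_sq_eq_of_rat (z := y * (B : ℚ) ^ 2) ?_
    rw [mul_pow, ← h, htAB, hQ]; push_cast; field_simp
  have hBA : IsCoprime B (A * Q) := by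
    refine hAB.symm.mul_right ?_
    rw [hQ, show A ^ 2 + a₂ * A * B + (q : ℤ) ^ e * B ^ 2
      = A ^ 2 + B * (a₂ * A + (q : ℤ) ^ e * B) by ring]
    exact (hAB.symm.pow_right).add_mul_left_right _
  obtain ⟨V, hV⟩ := Int.sq_of_gcd_eq_one (Int.isCoprime_iff_gcd_eq_one.mp hBA)
    (by linear_combination -hm : B * (A * Q) = m ^ 2)
  have hV : B = V ^ 2 := by rcases hV with e | e <;> [exact e; nlinarith [sq_nonneg V]]
  have hV0 : V ≠ 0 := by rintro rfl; simp [hV] at hB0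
  obtain ⟨d, k, hdk, hd⟩ := Nat.sq_mul_squarefree A.natAbs
  have hAdk : A = (d : ℤ) * (k : ℤ) ^ 2 := by
    rw [← Int.natAbs_of_nonneg hA0.le, ← hdk]; push_cast; ring
  have hk0 : (k : ℤ) ≠ 0 := by intro e; rw [hAdk, e] at hA0; simp at hA0
  have hdsq : Squarefree (d : ℤ) := Int.squarefree_natCast.mpr hd
  have hdA : (d : ℤ) ∣ A := ⟨(k : ℤ) ^ 2, hAdk⟩
  have hdQ : (d : ℤ) ∣ Q := by
    have h1 : ((k : ℤ) * V) ^ 2 ∣ m ^ 2 := ⟨(d : ℤ) * Q, by rw [hm, hV, hAdk]; ring⟩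
    obtain ⟨m₁, rfl⟩ := (Int.pow_dvd_pow_iff two_ne_zero).mp h1
    have h2 : (d : ℤ) * Q = m₁ ^ 2 := by
      have : ((k : ℤ) * V) ^ 2 * ((d : ℤ) * Q) = ((k : ℤ) * V) ^ 2 * m₁ ^ 2 := by
        rw [hV, hAdk] at hm; linear_combination -hm
      exact mul_left_cancel₀ (pow_ne_zero _ (mul_ne_zero hk0 hV0)) this
    obtain ⟨m₂, rfl⟩ := (hdsq.dvd_pow_iff_dvd two_ne_zero).mp ⟨Q, h2.symm⟩
    refine ⟨m₂ ^ 2, mul_left_cancel₀ (hdsq.ne_zero) ?_⟩
    linear_combination h2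
  have hdq : (d : ℤ) ∣ (q : ℤ) := by
    have h1 : (d : ℤ) ∣ (q : ℤ) ^ e * B ^ 2 := by
      have e2 : (q : ℤ) ^ e * B ^ 2 = Q - A * (A + a₂ * B) := by rw [hQ]; ring
      rw [e2]; exact hdQ.sub (hdA.mul_right _)
    have hc : IsCoprime (d : ℤ) B := hAB.of_isCoprime_of_dvd_left hdA
    exact (hdsq.dvd_pow_iff_dvd he.pos.ne').mp (hc.pow_right.dvd_of_dvd_mul_right h1)
  have hVq : (V : ℚ) ≠ 0 := by exact_mod_cast hV0
  have hkq : (k : ℚ) ≠ 0 := by exact_mod_cast hk0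
  rcases (Nat.dvd_prime hq).mp (Int.natCast_dvd_natCast.mp hdq) with rfl | rfl
  · refine ⟨(k : ℚ) / V, div_ne_zero hkq hVq, .inl ?_⟩
    rw [htAB, hAdk, hV]; push_cast; rw [div_pow, one_mul]
  · obtain ⟨i, rfl⟩ := he
    have hd0 : (d : ℚ) ≠ 0 := by exact_mod_cast hq.ne_zero
    refine ⟨(d : ℚ) ^ i * V / k,
      div_ne_zero (mul_ne_zero (pow_ne_zero _ hd0) hVq) hkq, .inr ?_⟩
    rw [htAB, hAdk, hV]; push_cast; field_simp; ring

lemma exists_int_quartic {a n : ℤ} {u w : ℚ} (h : u ^ 4 + a * u ^ 2 + n = w ^ 2) :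
    ∃ W : ℤ, u.num ^ 4 + a * u.num ^ 2 * (u.den : ℤ) ^ 2 + n * (u.den : ℤ) ^ 4 = W ^ 2 := by
  have hd : (u.den : ℚ) ≠ 0 := by exact_mod_cast u.den_ne_zero
  obtain ⟨W, hW⟩ := exists_int_sq_eq_of_rat (z := w * (u.den : ℚ) ^ 2)
    (m := u.num ^ 4 + a * u.num ^ 2 * (u.den : ℤ) ^ 2 + n * (u.den : ℤ) ^ 4) (by
      have e := Rat.num_div_den u
      rw [mul_pow, ← h]
      push_cast
      rw [show (u.num : ℚ) = u * u.den by rw [eq_comm, ← eq_div_iff hd]; exact e.symm]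
      ring)
  exact ⟨W, hW.symm⟩

/-- The only rational point of `y² = t(t² + 22t + 125)` has `t = 0`. -/
theorem five_not_square {t y : ℚ} (h : t * (t ^ 2 + 22 * t + 125) = y ^ 2) : t = 0 := by
  by_contra ht0
  have ht : 0 < t := by
    have hpos : 0 < t ^ 2 + 22 * t + 125 := by nlinarith [sq_nonneg (t + 11)]
    exact lt_of_le_of_ne (nonneg_of_mul_nonneg_left (h ▸ sq_nonneg y) hpos) (Ne.symm ht0)
  obtain ⟨u, -, -, w, hw⟩ := square_class (q := 5) (e := 3) (a₂ := 22) (by norm_num) (by decide) ht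
    (y := y) (by push_cast; linear_combination h)
  obtain ⟨W, hW⟩ := exists_int_quartic (a := 22) (n := 125) (u := u) (w := w)
    (by push_cast at hw ⊢; linear_combination hw)
  exact Int.natCast_ne_zero.mpr u.den_ne_zero (five_quartic (Rat.isCoprime_num_den u) hW)

/-- The only rational point of `y² = t(t² + 6t + 13)` has `t = 0`. -/
theorem thirteen_not_square {t y : ℚ} (h : t * (t ^ 2 + 6 * t + 13) = y ^ 2) : t = 0 := by
  by_contra ht0
  have ht : 0 < t := by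
    have hpos : 0 < t ^ 2 + 6 * t + 13 := by nlinarith [sq_nonneg (t + 3)]
    exact lt_of_le_of_ne (nonneg_of_mul_nonneg_left (h ▸ sq_nonneg y) hpos) (Ne.symm ht0)
  obtain ⟨u, -, -, w, hw⟩ := square_class (q := 13) (e := 1) (a₂ := 6) (by norm_num) (by decide) ht
    (y := y) (by push_cast; linear_combination h)
  obtain ⟨W, hW⟩ := exists_int_quartic (a := 6) (n := 13) (u := u) (w := w)
    (by push_cast at hw ⊢; linear_combination hw)
  exact Int.natCast_ne_zero.mpr u.den_ne_zero (thirteen_quartic (Rat.isCoprime_num_den u) hW)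

/-- The rational points of `y² = t(t² - 11t + 32)` with `t > 0`. -/
theorem seven_points {t y : ℚ} (ht : 0 < t) (h : t * (t ^ 2 - 11 * t + 32) = y ^ 2) :
    t = 4 ∨ t = 8 := by
  obtain ⟨u, -, hc, w, hw⟩ := square_class (q := 2) (e := 5) (a₂ := -11) (by norm_num) (by decide)
    ht (y := y) (by push_cast; linear_combination h)
  obtain ⟨W, hW⟩ := exists_int_quartic (a := -11) (n := 32) (u := u) (w := w)
    (by push_cast at hw ⊢; linear_combination hw)
  obtain ⟨h2, h1⟩ := seven_quartic _ _ W (Rat.isCoprime_num_den u)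
    (Int.natCast_ne_zero.mpr u.den_ne_zero) (by linear_combination hW)
  have hu : u ^ 2 = 4 := by
    have e := Rat.num_div_den u
    rw [show u.den = 1 by simpa using h1] at e
    rcases (Int.natAbs_eq_iff.mp h2) with e2 | e2 <;> rw [e2] at e <;> rw [← e] <;> norm_num
  rcases hc with hc | hc
  · exact .inl (hc.trans hu)
  · right; rw [hu] at hc; field_simp at hc; norm_num at hc; linarith

/-- The rational points of the genus two curve `X₀(28)` used at `p = 7`. -/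
theorem seven_genus_two {w a : ℚ} (hw : w ≠ 0)
    (h : (w ^ 2 - 7) * (a ^ 2 - 1) = w * (a ^ 3 - 9 * a)) : False := by
  have hX : 0 < a ^ 2 + 7 := by positivity
  have key : (a ^ 2 + 7) * ((a ^ 2 + 7) ^ 2 - 11 * (a ^ 2 + 7) + 32)
      = ((w ^ 2 + 7) / w * (a ^ 2 - 1)) ^ 2 := by
    field_simp
    linear_combination -((w ^ 2 - 7) * (a ^ 2 - 1) + w * (a ^ 3 - 9 * a)) * h
  rcases seven_points hX key with e | e
  · nlinarith [sq_nonneg a]
  · have ha2 : a ^ 2 = 1 := by linarith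
    have : w * (a * (a ^ 2 - 9)) = 0 := by
      rw [ha2] at h ⊢; linear_combination -h - w * a * ha2
    rw [ha2] at this
    rcases mul_eq_zero.mp this with e | e
    · exact hw e
    · have : a = 0 := by linarith
      subst this; norm_num at ha2

end Fermat.Agent.SmallPrimes
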