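import Fermat.Prelude.Def_FLTPrelim_CofixedLine
import Fermat.Agent.EC.Torsion.Main
import Fermat.Agent.EC.Reducible.Lines
import Fermat.Agent.SmallPrimes.FiveSeven
import Fermat.Agent.SmallPrimes.RationalPoints

/-!
# The Frey curve has no Galois stable line at `p = 5, 7, 13`

Such a line gives a rational value of the Hauptmodul of `X₀(p)` above `j`; since `j - 1728` is a
square, this lands on a curve whose rational points are found in `RationalPoints`.
-/

set_option autoImplicit false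

open WeierstrassCurve WeierstrassCurve.Affine
open scoped WeierstrassCurve.Affine

namespace Fermat.Agent.SmallPrimes

local notation "Qbar" => AlgebraicClosure ℚ

/-- Invariants of the Frey curve in terms of `A = aᵖ`, `B = bᵖ`. -/
lemma frey_invariants (P : FreyPackage) :
    let A : ℚ := (P.a : ℚ) ^ P.p
    let B : ℚ := (P.b : ℚ) ^ P.p
    P.freyCurve.c₄ = A ^ 2 + A * B + B ^ 2 ∧
      P.freyCurve.c₆ = -(B - A) * ((B - A) ^ 2 + 9 * A * B / 2) ∧
      P.freyCurve.Δ = A ^ 2 * B ^ 2 * (A + B) ^ 2 / 256 ∧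
      A ≠ 0 ∧ B ≠ 0 ∧ A + B ≠ 0 ∧ P.freyCurve.c₆ ≠ 0 := by
  intro A B
  have hc6 : P.freyCurve.c₆ = -(B - A) * ((B - A) ^ 2 + 9 * A * B / 2) := by
    simp only [c₆, b₂, b₄, b₆, FreyPackage.freyCurve, A, B]; ring
  have hA : A ≠ 0 := pow_ne_zero _ (by exact_mod_cast P.ha0)
  have hB : B ≠ 0 := pow_ne_zero _ (by exact_mod_cast P.hb0)
  refine ⟨?_, hc6, ?_, hA, hB, ?_, ?_⟩
  · simp only [c₄, b₂, b₄, FreyPackage.freyCurve, A, B]; ring
  · simp only [Δ, b₂, b₄, b₆, b₈, FreyPackage.freyCurve, A, B]; ring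
  · have : A + B = ((P.c ^ P.p : ℤ) : ℚ) := by
      rw [← P.hFLT]; simp only [A, B]; push_cast; rfl
    rw [this]; exact_mod_cast pow_ne_zero _ P.hc0
  · have h2a : ¬ (2 : ℤ) ∣ P.a ^ P.p := by
      intro h
      have h' := Int.prime_two.dvd_of_dvd_pow h
      have h4 := P.ha4
      have : (P.a : ZMod 4) = ((3 : ℤ) : ZMod 4) := by rw [h4]; norm_num
      have := (ZMod.intCast_eq_intCast_iff' _ _ 4).mp this
      omega
    have h2b : (4 : ℤ) ∣ P.b ^ P.p := by
      obtain ⟨k, hk⟩ := (ZMod.intCast_zmod_eq_zero_iff_dvd P.b 2).mp P.hb2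
      rw [hk, mul_pow]
      exact dvd_mul_of_dvd_left
        ((show (4:ℤ) ∣ 2 ^ 2 by norm_num).trans (pow_dvd_pow 2 (by have := P.hp5; omega))) _
    rw [hc6]
    refine mul_ne_zero (neg_ne_zero.mpr ?_) ?_
    · intro h
      have : P.b ^ P.p = P.a ^ P.p := by
        have : ((P.b ^ P.p : ℤ) : ℚ) = ((P.a ^ P.p : ℤ) : ℚ) := by
          push_cast; simp only [A, B] at h; linarith
        exact_mod_cast this
      omega
    · intro h
      have hz : (2 * P.b ^ P.p + P.a ^ P.p) * (P.b ^ P.p + 2 * P.a ^ P.p) = 0 := by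
        have : (((2 * P.b ^ P.p + P.a ^ P.p) * (P.b ^ P.p + 2 * P.a ^ P.p) : ℤ) : ℚ) = 0 := by
          push_cast; simp only [A, B] at h; linear_combination 2 * h
        exact_mod_cast this
      rcases mul_eq_zero.mp hz with h' | h' <;> omega

/-- A stable cofixed line gives a generator on which Galois acts by scalars. -/
lemma exists_eigen_point (W : WeierstrassCurve ℚ) (hΔ : W.Δ ≠ 0) {p : ℕ} (hp : p.Prime)
    (h : Point.HasGaloisStableCofixedLine (K := Qbar) ℚ W p) :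
    ∃ Q : (W⁄Qbar).Point, addOrderOf Q = p ∧
      ∀ σ : Qbar ≃ₐ[ℚ] Qbar, ∃ k : ℕ, σ • Q = k • Q := by
  have := Fact.mk hp
  have : W.IsElliptic := ⟨isUnit_iff_ne_zero.mpr hΔ⟩
  have : (W⁄Qbar).IsElliptic := inferInstanceAs (W.map (algebraMap ℚ Qbar)).IsElliptic
  obtain ⟨N, hst, h0, h1, -⟩ := h
  have hp0 : (p : Qbar) ≠ 0 := Nat.cast_ne_zero.mpr hp.ne_zero
  have hfr := Fermat.Agent.EC.Torsion.finrank_torsionBy W Qbar (p := p) hp0
  have := Fermat.Agent.EC.Torsion.moduleFinite_torsionBy W Qbar (p := p) hp0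
  have hN := Fermat.Agent.EC.Reducible.finrank_line_eq_one hfr h0 h1
  obtain ⟨v, hv, hv0⟩ := Submodule.exists_mem_ne_zero_of_ne_bot h0
  refine ⟨v.1, ?_, fun σ => ?_⟩
  · refine addOrderOf_eq_prime ?_ fun e => hv0 (Subtype.ext e)
    have := (Submodule.mem_torsionBy_iff _ _).mp v.2
    rwa [natCast_zsmul] at this
  · obtain ⟨c, hc⟩ := exists_smul_eq_of_finrank_eq_one hN
      (x := (⟨v, hv⟩ : N)) (by simpa using hv0) ⟨σ • v, hst σ v hv⟩
    have hc' : c.val • v = σ • v := by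
      rw [← Nat.cast_smul_eq_nsmul (ZMod p), ZMod.natCast_zmod_val]
      exact congrArg Subtype.val hc
    exact ⟨c.val, (congrArg Subtype.val hc').symm⟩

/-- A stable line at a prime gives a rational value of the Hauptmodul, linked to `j`. -/
lemma exists_hauptmodul (P : FreyPackage) (f : Qbar → Qbar → Qbar)
    (hmap : ∀ (σ : Qbar ≃ₐ[ℚ] Qbar) (b c : Qbar), σ (f b c) = f (σ b) (σ c))
    (hinv : ∀ b c, IsOrder P.p b c → f (nextB b c) (nextC b c) = f b c)
    (hgen : ∀ k, k < P.p → k ≠ 0 → ∃ i < P.p, 2 ^ i % P.p = k ∨ (2 ^ i + k) % P.p = 0)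
    (num : Polynomial ℚ)
    (hj : ∀ b c, IsOrder P.p b c →
      (tateCurve b c).c₄ ^ 3 * f b c = Polynomial.aeval (f b c) num * (tateCurve b c).Δ)
    (h : Point.HasGaloisStableCofixedLine (K := Qbar) ℚ P.freyCurve P.p) :
    ∃ t : ℚ, P.freyCurve.c₄ ^ 3 * t = num.eval t * P.freyCurve.Δ := by
  obtain ⟨-, -, hΔ, hA, hB, hC, -⟩ := frey_invariants P
  have hΔ0 : P.freyCurve.Δ ≠ 0 := by
    rw [hΔ]; positivity
  obtain ⟨Q, hQ, hline⟩ := exists_eigen_point _ hΔ0 P.pp h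
  obtain ⟨t, b, c, ho, hΔt, ht, hrel⟩ :=
    exists_rat_val P.freyCurve hΔ0 P.pp P.hp5 f hmap hinv hgen hQ hline
  refine ⟨t, (algebraMap ℚ Qbar).injective ?_⟩
  have e := hj b c ho
  rw [ht, Polynomial.aeval_algebraMap_apply, Polynomial.coe_aeval_eq_eval] at e
  refine mul_right_cancel₀ hΔt ?_
  rw [map_mul, map_mul]
  linear_combination algebraMap ℚ Qbar t * hrel + algebraMap ℚ Qbar P.freyCurve.Δ * e

/-- `j - 1728` is a square. -/
lemma exists_sq (P : FreyPackage) {t N : ℚ} (h : P.freyCurve.c₄ ^ 3 * t = N * P.freyCurve.Δ) :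
    ∃ z : ℚ, z ≠ 0 ∧ N - 1728 * t = t * z ^ 2 := by
  obtain ⟨-, -, hΔ, hA, hB, hC, h6⟩ := frey_invariants P
  have hrel := P.freyCurve.c_relation
  refine ⟨P.freyCurve.c₆ * 16 /
    ((P.a : ℚ) ^ P.p * (P.b : ℚ) ^ P.p * ((P.a : ℚ) ^ P.p + (P.b : ℚ) ^ P.p)),
    by simp [h6, hA, hB, hC], ?_⟩
  rw [hΔ] at h hrel
  field_simp at h hrel ⊢
  linear_combination -h - t * hrel

/-- No Galois stable line at `p = 5`. -/
theorem no_line_five (P : FreyPackage) (hp : P.p = 5) :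
    ¬ Point.HasGaloisStableCofixedLine (K := Qbar) ℚ P.freyCurve P.p := by
  intro h
  obtain ⟨t, ht⟩ := exists_hauptmodul P haupt5
    (fun σ b c => by simp [haupt5, map_ofNat])
    (fun b c ho => haupt5_next (hp ▸ ho))
    (by rw [hp]; decide)
    ((Polynomial.X ^ 2 + 10 * Polynomial.X + 5) ^ 3)
    (fun b c ho => by
      rw [j_five (hp ▸ ho)]
      simp [map_ofNat]) h
  simp only [Polynomial.eval_pow, Polynomial.eval_add, Polynomial.eval_mul, Polynomial.eval_X,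
    Polynomial.eval_ofNat] at ht
  obtain ⟨z, hz, hsq⟩ := exists_sq P ht
  obtain ⟨R, hR⟩ : ∃ R, t ^ 2 + 4 * t - 1 = R * 1 ∧ (t ^ 2 + 22 * t + 125) * R ^ 2 = t * z ^ 2 :=
    ⟨t ^ 2 + 4 * t - 1, (mul_one _).symm, by rw [← hsq]; ring⟩
  obtain ⟨hR1, hkey⟩ := hR
  have ht0 : t ≠ 0 := by intro e; rw [e] at hsq; norm_num at hsq
  have hP : R ≠ 0 := by
    intro h0
    rw [h0] at hkey
    simp [ht0, hz] at hkey
  have := five_not_square (t := t) (y := t * z / R) (by
    field_simp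
    linear_combination hkey)
  subst this
  norm_num at hsq

/-- No Galois stable line at `p = 13`. -/
theorem no_line_thirteen (P : FreyPackage) (hp : P.p = 13) :
    ¬ Point.HasGaloisStableCofixedLine (K := Qbar) ℚ P.freyCurve P.p := by
  intro h
  obtain ⟨t, ht⟩ := exists_hauptmodul P haupt13
    (fun σ b c => by simp [haupt13, coord13, map_ofNat])
    (fun b c ho => haupt13_next (hp ▸ ho))
    (by rw [hp]; decide)
    ((Polynomial.X ^ 2 + 5 * Polynomial.X + 13) *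
      (Polynomial.X ^ 4 + 7 * Polynomial.X ^ 3 + 20 * Polynomial.X ^ 2 + 19 * Polynomial.X + 1) ^ 3)
    (fun b c ho => by
      rw [j_thirteen (hp ▸ ho)]
      simp [map_ofNat]) h
  simp only [Polynomial.eval_pow, Polynomial.eval_add, Polynomial.eval_mul, Polynomial.eval_X,
    Polynomial.eval_ofNat, Polynomial.eval_one] at ht
  obtain ⟨z, hz, hsq⟩ := exists_sq P ht
  set R := t ^ 6 + 10 * t ^ 5 + 46 * t ^ 4 + 108 * t ^ 3 + 122 * t ^ 2 + 38 * t - 1 with hR
  have hkey : (t ^ 2 + 6 * t + 13) * R ^ 2 = t * z ^ 2 := by rw [← hsq, hR]; ring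
  have ht0 : t ≠ 0 := by intro e; rw [e] at hsq; norm_num at hsq
  have hR0 : R ≠ 0 := by
    intro h0
    rw [h0] at hkey
    simp [ht0, hz] at hkey
  exact ht0 (thirteen_not_square (t := t) (y := t * z / R) (by
    field_simp
    linear_combination hkey))

/-- No Galois stable line at `p = 7`. -/
theorem no_line_seven (P : FreyPackage) (hp : P.p = 7) :
    ¬ Point.HasGaloisStableCofixedLine (K := Qbar) ℚ P.freyCurve P.p := by
  intro h
  obtain ⟨t, ht⟩ := exists_hauptmodul P haupt7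
    (fun σ b c => by simp [haupt7, map_ofNat])
    (fun b c ho => haupt7_next (hp ▸ ho))
    (by rw [hp]; decide)
    ((Polynomial.X ^ 2 + 13 * Polynomial.X + 49) *
      (Polynomial.X ^ 2 + 5 * Polynomial.X + 1) ^ 3)
    (fun b c ho => by
      rw [j_seven (hp ▸ ho)]
      simp [map_ofNat]) h
  simp only [Polynomial.eval_pow, Polynomial.eval_add, Polynomial.eval_mul, Polynomial.eval_X,
    Polynomial.eval_ofNat, Polynomial.eval_one] at ht
  obtain ⟨z, hz, hsq⟩ := exists_sq P ht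
  have ht0 : t ≠ 0 := by intro e; rw [e] at hsq; norm_num at hsq
  have hkey : (t ^ 4 + 14 * t ^ 3 + 63 * t ^ 2 + 70 * t - 7) ^ 2 = t * z ^ 2 := by
    rw [← hsq]; ring
  obtain ⟨w, rfl⟩ : ∃ w : ℚ, t = w ^ 2 :=
    ⟨(t ^ 4 + 14 * t ^ 3 + 63 * t ^ 2 + 70 * t - 7) / z, by field_simp; linear_combination -hkey⟩
  obtain ⟨hc4, -, hΔ, hA, hB, hC, -⟩ := frey_invariants P
  rw [hc4, hΔ] at ht
  generalize (P.a : ℚ) ^ P.p = A at hA hC ht
  generalize (P.b : ℚ) ^ P.p = B at hB hC ht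
  -- `l = -A/B` is the Legendre parameter
  set l : ℚ := -A / B with hl
  have hsign : 16 * (l ^ 3 - 3 * l + 1) * w - (24 * w +
        (w ^ 8 + 14 * w ^ 6 + 63 * w ^ 4 + 70 * w ^ 2 - 7)) * (l ^ 2 - l) = 0 ∨
      16 * (l ^ 3 - 3 * l + 1) * (-w) - (24 * (-w) +
        (w ^ 8 + 14 * w ^ 6 + 63 * w ^ 4 + 70 * w ^ 2 - 7)) * (l ^ 2 - l) = 0 := by
    rw [← mul_eq_zero]
    have hl' : 256 * (l ^ 2 - l + 1) ^ 3 * w ^ 2
      = ((w ^ 2) ^ 2 + 13 * w ^ 2 + 49) * ((w ^ 2) ^ 2 + 5 * w ^ 2 + 1) ^ 3 * (l ^ 2 - l) ^ 2 := by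
      rw [hl]; field_simp; field_simp at ht; linear_combination ht
    linear_combination -hl'
  have main : ∀ v : ℚ, v ≠ 0 → 16 * (l ^ 3 - 3 * l + 1) * v - (24 * v +
      (v ^ 8 + 14 * v ^ 6 + 63 * v ^ 4 + 70 * v ^ 2 - 7)) * (l ^ 2 - l) = 0 → False := by
    intro v hv hK
    set N := (2 * l - 1) * (v ^ 2 + 1) - 3 * v with hN
    set D := (2 * l - 1) * v + v ^ 2 + 1 with hD
    have hid : (N ^ 2 * D - D ^ 3) * (v ^ 2 - 7) - v * (N ^ 3 - 9 * N * D ^ 2) = 0 := by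
      rw [hN, hD]; linear_combination (-4 : ℚ) * hK
    by_cases hD0 : D = 0
    · have h1 : v * N ^ 3 = 0 := by
        rw [hD0] at hid; linear_combination -hid
      have hN0 : N = 0 := pow_eq_zero_iff three_ne_zero |>.mp ((mul_eq_zero.mp h1).resolve_left hv)
      have h2 : (v ^ 2 + 1) ^ 2 + 3 * v ^ 2 = 0 := by
        rw [hN] at hN0; rw [hD] at hD0
        linear_combination (v ^ 2 + 1) * hD0 - v * hN0
      nlinarith [sq_nonneg (v ^ 2 + 1), sq_nonneg v]
    · refine seven_genus_two (w := v) (a := N / D) hv ?_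
      field_simp
      linear_combination hid
  have hw : w ≠ 0 := fun e => ht0 (by rw [e]; ring)
  rcases hsign with e | e
  · exact main w hw e
  · exact main (-w) (neg_ne_zero.mpr hw) (by linear_combination e)

end Fermat.Agent.SmallPrimes
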