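import Mathlib

/-!
# Two-isogeny descents for the quartics of `X₀(5)` and `X₀(13)`

`eq_zero_of_sq_add_four`: for suitable `a` and `N = a² + 4` the quartic `U⁴ + 2aU²V² + NV⁴ = W²`
has only the trivial coprime solution `V = 0`; applied to `(a, N) = (3, 13)` and `(11, 125)` in
`thirteen_quartic` and `five_quartic`.
-/

set_option autoImplicit false

namespace Fermat.Agent.SmallPrimes

/-- Splitting a coprime factorisation of `n * h⁴`. -/
lemma split_fourth {X Y n h : ℤ} (hX : 0 < X) (hY : 0 < Y) (hn : 0 < n)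
    (hco : IsCoprime X Y) (hd : n ∣ X ∨ n ∣ Y) (hXY : X * Y = n * h ^ 4) :
    ∃ P Q : ℤ, IsCoprime P Q ∧ (P * Q) ^ 2 = h ^ 2 ∧
      ((X = P ^ 4 ∧ Y = n * Q ^ 4) ∨ (X = n * Q ^ 4 ∧ Y = P ^ 4)) := by
  have main : ∀ A B : ℤ, 0 < A → 0 < B → IsCoprime A B → n ∣ B → A * B = n * h ^ 4 →
      ∃ P Q : ℤ, IsCoprime P Q ∧ (P * Q) ^ 2 = h ^ 2 ∧ A = P ^ 4 ∧ B = n * Q ^ 4 := by
    rintro A B hA hB hcop ⟨C, rfl⟩ hAB
    have hAC : A * C = h ^ 4 := by
      have : n * (A * C) = n * h ^ 4 := by linear_combination hAB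
      exact mul_left_cancel₀ hn.ne' this
    have hcop' : IsCoprime A C := hcop.of_mul_right_right
    obtain ⟨P, hP⟩ := exists_associated_pow_of_mul_eq_pow'
      hcop' hAC
    obtain ⟨Q, hQ⟩ := exists_associated_pow_of_mul_eq_pow'
      hcop'.symm (by rw [mul_comm]; exact hAC : C * A = h ^ 4)
    have hP' : A = P ^ 4 := by
      rcases Int.associated_iff.mp hP with e | e
      · exact e.symm
      · nlinarith [sq_nonneg (P ^ 2)]
    have hQ' : C = Q ^ 4 := by
      rcases Int.associated_iff.mp hQ with e | e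
      · exact e.symm
      · nlinarith [sq_nonneg (Q ^ 2)]
    refine ⟨P, Q, ?_, ?_, hP', by rw [hQ']⟩
    · rw [hP', hQ'] at hcop'
      exact (IsCoprime.pow_iff (by norm_num) (by norm_num)).mp hcop'
    · have : ((P * Q) ^ 2) ^ 2 = (h ^ 2) ^ 2 := by
        rw [hP', hQ'] at hAC; linear_combination hAC
      exact (sq_eq_sq₀ (sq_nonneg _) (sq_nonneg _)).mp this
  rcases hd with h' | h'
  · obtain ⟨P, Q, h1, h2, h3, h4⟩ := main Y X hY hX hco.symm h' (by linear_combination hXY)
    exact ⟨P, Q, h1, h2, .inr ⟨h4, h3⟩⟩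
  · obtain ⟨P, Q, h1, h2, h3, h4⟩ := main X Y hX hY hco h' hXY
    exact ⟨P, Q, h1, h2, .inl ⟨h3, h4⟩⟩

lemma not_prime_dvd_both {u v r : ℤ} (h : IsCoprime u v) (hr : Prime r) (hu : r ∣ u)
    (hv : r ∣ v) : False :=
  hr.not_isUnit (h.isUnit_of_dvd' hu hv)

lemma sq_emod_eight (x : ℤ) :
    (x % 2 = 1 → x ^ 2 % 8 = 1) ∧ (x % 2 = 0 → x ^ 2 % 8 = 0 ∨ x ^ 2 % 8 = 4) := by
  have h : x % 8 = 0 ∨ x % 8 = 1 ∨ x % 8 = 2 ∨ x % 8 = 3 ∨ x % 8 = 4 ∨ x % 8 = 5 ∨
    x % 8 = 6 ∨ x % 8 = 7 := by omega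
  have e : x ^ 2 % 8 = (x % 8) ^ 2 % 8 := by simp [pow_two, Int.mul_emod]
  rw [e]
  rcases h with h | h | h | h | h | h | h | h <;> rw [h] <;> norm_num <;> omega

lemma intCast_sq_eq_one {x : ℤ} (h : x % 2 = 1) : (x : ZMod 8) ^ 2 = 1 := by
  rw [← Int.cast_pow, ← Int.cast_one]
  exact (ZMod.intCast_eq_intCast_iff' _ _ 8).mpr (by simpa using (sq_emod_eight x).1 h)

lemma odd_sq_emod_sixteen {x : ℤ} (h : x % 2 = 1) : x ^ 2 % 16 = 1 ∨ x ^ 2 % 16 = 9 := by
  have h' : x % 16 = 1 ∨ x % 16 = 3 ∨ x % 16 = 5 ∨ x % 16 = 7 ∨ x % 16 = 9 ∨ x % 16 = 11 ∨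
    x % 16 = 13 ∨ x % 16 = 15 := by omega
  have e : x ^ 2 % 16 = (x % 16) ^ 2 % 16 := by simp [pow_two, Int.mul_emod]
  rw [e]
  rcases h' with h | h | h | h | h | h | h | h <;> rw [h] <;> norm_num

/-- The descent for `U⁴ + 2aU²V² + (a²+4)V⁴ = W²`. -/
theorem eq_zero_of_sq_add_four {a N : ℤ} (ha : a % 8 = 3) (hN : N = a ^ 2 + 4)
    (hcop : ∀ k h X Y : ℤ, IsCoprime k h → X + Y = k ^ 2 - 2 * a * h ^ 2 →
      X * Y = N * h ^ 4 → IsCoprime X Y)
    (hsplit : ∀ X Y : ℤ, IsCoprime X Y → N ∣ X * Y → N ∣ X ∨ N ∣ Y) :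
    ∀ U V W : ℤ, IsCoprime U V → U ^ 4 + 2 * a * U ^ 2 * V ^ 2 + N * V ^ 4 = W ^ 2 → V = 0 := by
  suffices ∀ n : ℕ, ∀ U V W : ℤ, V.natAbs = n → IsCoprime U V →
      U ^ 4 + 2 * a * U ^ 2 * V ^ 2 + N * V ^ 4 = W ^ 2 → V = 0 from
    fun U V W => this _ U V W rfl
  intro n
  induction n using Nat.strong_induction_on with
  | _ n ih =>
    intro U V W hn hUV hW
    by_contra hV
    subst hN
    have hform : (U ^ 2 + a * V ^ 2) ^ 2 + (2 * V ^ 2) ^ 2 = W ^ 2 := by linear_combination hW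
    have hU8 := sq_emod_eight U
    have hV8 := sq_emod_eight V
    have hW8 := sq_emod_eight W
    have ha8 : (a : ZMod 8) = 3 := by
      rw [show (3 : ZMod 8) = ((3 : ℤ) : ZMod 8) by norm_num]
      exact (ZMod.intCast_eq_intCast_iff' _ _ 8).mpr (by simpa using ha)
    rcases Int.emod_two_eq_zero_or_one U with hU2 | hU2 <;>
      rcases Int.emod_two_eq_zero_or_one V with hV2 | hV2
    · exact not_prime_dvd_both hUV Int.prime_two (Int.dvd_of_emod_eq_zero hU2)
        (Int.dvd_of_emod_eq_zero hV2)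
    · -- `U` even, `V` odd: the right side is `5` modulo `8`
      obtain ⟨U₁, hU₁⟩ := Int.dvd_of_emod_eq_zero hU2
      have h1 : ((W : ZMod 8) ^ 2) = ((2 * U₁ : ℤ) : ZMod 8) ^ 4
          + 2 * (a : ZMod 8) * ((2 * U₁ : ℤ) : ZMod 8) ^ 2 * (V : ZMod 8) ^ 2
          + ((a : ZMod 8) ^ 2 + 4) * ((V : ZMod 8) ^ 2) ^ 2 := by
        have := congrArg (fun z : ℤ => (z : ZMod 8)) hW
        push_cast [hU₁] at this ⊢
        linear_combination -this
      have hVs := intCast_sq_eq_one hV2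
      have key : ∀ w u : ZMod 8,
          w ^ 2 ≠ (2 * u) ^ 4 + 2 * 3 * (2 * u) ^ 2 * 1 + (3 ^ 2 + 4) * 1 ^ 2 := by decide
      rw [hVs, ha8] at h1
      push_cast at h1
      exact key _ _ h1
    · -- `U` odd, `V` even: the descent step
      have hV' : 2 * V ^ 2 ≠ 0 := by positivity
      have hxodd : (U ^ 2 + a * V ^ 2) % 2 = 1 := by
        obtain ⟨V₁, rfl⟩ := Int.dvd_of_emod_eq_zero hV2
        have : a * (2 * V₁) ^ 2 = 2 * (2 * a * V₁ ^ 2) := by ring
        have := hU8.1 hU2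
        omega
      have hgcd : Int.gcd (U ^ 2 + a * V ^ 2) (2 * V ^ 2) = 1 := by
        rw [← Int.isCoprime_iff_gcd_eq_one]
        refine IsCoprime.mul_right ?_ ?_
        · refine (Int.isCoprime_iff_gcd_eq_one.mpr ?_)
          rw [Int.gcd_comm]
          rcases (Nat.dvd_prime Nat.prime_two).mp
            (show Int.gcd (2 : ℤ) (U ^ 2 + a * V ^ 2) ∣ 2 by
              exact Int.natCast_dvd_natCast.mp (Int.gcd_dvd_left (2 : ℤ) _)) with e | e
          · exact e
          · have : ((Int.gcd 2 (U ^ 2 + a * V ^ 2) : ℕ) : ℤ) ∣ U ^ 2 + a * V ^ 2 :=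
              Int.gcd_dvd_right _ _
            rw [e] at this
            omega
        · exact (hUV.pow (m := 2) (n := 2)).add_mul_right_left a
      have htrip : PythagoreanTriple (U ^ 2 + a * V ^ 2) (2 * V ^ 2) |W| := by
        show _ = |W| * |W|
        rw [abs_mul_abs_self]; linear_combination hform
      have hWpos : 0 < |W| := by
        rw [abs_pos]; rintro rfl; nlinarith [pow_pos (mul_self_pos.mpr hV') 1]
      obtain ⟨m, l', hx, hy, -, hml, hpar, hm0⟩ :=
        htrip.coprime_classification' hgcd hxodd hWpos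
      have hmn : m * l' = V ^ 2 := by linarith
      have hVpos : 0 < V ^ 2 := by positivity
      have hl0 : 0 < l' := pos_of_mul_pos_right (hmn ▸ hVpos) hm0
      obtain ⟨k, hk⟩ := Int.sq_of_gcd_eq_one hml hmn
      have hml' : Int.gcd l' m = 1 := by rwa [Int.gcd_comm]
      obtain ⟨l, hl⟩ := Int.sq_of_gcd_eq_one hml' (by rw [mul_comm]; exact hmn)
      have hk' : m = k ^ 2 := by rcases hk with e | e <;> [exact e; nlinarith [sq_nonneg k]]
      have hl' : l' = l ^ 2 := by rcases hl with e | e <;> [exact e; nlinarith [sq_nonneg l]]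
      subst hk' hl'
      have hkl : IsCoprime k l := by
        have := Int.isCoprime_iff_gcd_eq_one.mpr hml
        exact (IsCoprime.pow_iff (by norm_num) (by norm_num)).mp this
      have hU : U ^ 2 = k ^ 4 - a * k ^ 2 * l ^ 2 - l ^ 4 := by
        linear_combination hx + a * hmn
      have hV2eq : V ^ 2 = k ^ 2 * l ^ 2 := hmn.symm
      have hlev : l % 2 = 0 := by
        by_contra hlne
        have hl1 : l % 2 = 1 := by omega
        have hk0 : k % 2 = 0 := by
          rcases Int.emod_two_eq_zero_or_one k with h | h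
          · exact h
          · exfalso
            have := (sq_emod_eight k).1 h
            have := (sq_emod_eight l).1 hl1
            omega
        obtain ⟨k₁, rfl⟩ := Int.dvd_of_emod_eq_zero hk0
        have h1 : ((U : ZMod 8) ^ 2) = (2 * (k₁ : ZMod 8)) ^ 4
            - (a : ZMod 8) * (2 * (k₁ : ZMod 8)) ^ 2 * (l : ZMod 8) ^ 2
            - ((l : ZMod 8) ^ 2) ^ 2 := by
          have := congrArg (fun z : ℤ => (z : ZMod 8)) hU
          push_cast at this
          linear_combination this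
        have key : ∀ u k' : ZMod 8, u ^ 2 = 1 →
            u ^ 2 ≠ (2 * k') ^ 4 - 3 * (2 * k') ^ 2 * 1 - 1 ^ 2 := by decide
        have hls := intCast_sq_eq_one hl1
        have hus := intCast_sq_eq_one hU2
        rw [hls, ha8] at h1
        exact key _ _ hus h1
      obtain ⟨h, rfl⟩ := Int.dvd_of_emod_eq_zero hlev
      have hkodd : k % 2 = 1 := by
        by_contra hne
        exact not_prime_dvd_both hkl Int.prime_two (Int.dvd_of_emod_eq_zero (by omega))
          (dvd_mul_right 2 h)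
      have hh : h ≠ 0 := by rintro rfl; simp at hl0
      -- the two factors
      have hsum_even : (k ^ 2 - 2 * a * h ^ 2 - U) % 2 = 0 := by
        have := (sq_emod_eight k).1 hkodd
        have : 2 * a * h ^ 2 = 2 * (a * h ^ 2) := by ring
        omega
      obtain ⟨X, hX⟩ := Int.dvd_of_emod_eq_zero hsum_even
      obtain ⟨Y, hY⟩ : 2 ∣ (k ^ 2 - 2 * a * h ^ 2 + U) := by omega
      have hsum : X + Y = k ^ 2 - 2 * a * h ^ 2 := by linarith
      have hprod : X * Y = (a ^ 2 + 4) * h ^ 4 := by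
        have : 4 * (X * Y) = 4 * ((a ^ 2 + 4) * h ^ 4) := by
          linear_combination -(2 * Y) * hX - (k ^ 2 - 2 * a * h ^ 2 - U) * hY - hU
        linarith
      have hkh : IsCoprime k h := hkl.of_mul_right_right
      have hXY := hcop k h X Y hkh hsum hprod
      have hppos : 0 < X * Y := by rw [hprod]; positivity
      have hQlt : ∀ P Q : ℤ, (P * Q) ^ 2 = h ^ 2 → P ≠ 0 → Q ≠ 0 → Q.natAbs < n := by
        intro P Q hPQ hP hQ
        rw [← hn, Int.natAbs_lt_iff_sq_lt]
        · have h1 : (0:ℤ) < P ^ 2 := by positivity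
          have h2 : (1:ℤ) ≤ P ^ 2 := h1
          have h3 : (1:ℤ) ≤ k ^ 2 := by
            have := (sq_emod_eight k).1 hkodd; have := sq_nonneg k; omega
          calc Q ^ 2 ≤ h ^ 2 := by
                rw [← hPQ, mul_pow]; exact le_mul_of_one_le_left (sq_nonneg Q) h2
            _ < 1 * (2 * h) ^ 2 := by
                have : (0:ℤ) < h ^ 2 := by positivity
                rw [mul_pow]; linarith
            _ ≤ k ^ 2 * (2 * h) ^ 2 := mul_le_mul_of_nonneg_right h3 (sq_nonneg _)
            _ = V ^ 2 := hV2eq.symm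
      rcases pos_and_pos_or_neg_and_neg_of_mul_pos hppos with ⟨hXp, hYp⟩ | ⟨hXn, hYn⟩
      · obtain ⟨P, Q, hPQc, hPQ, hc⟩ := split_fourth hXp hYp (by positivity) hXY
          (hsplit X Y hXY (hprod ▸ dvd_mul_right _ _)) hprod
        have hP : P ≠ 0 := by intro h0; apply hh; simpa [h0] using hPQ.symm
        have hQ : Q ≠ 0 := by intro h0; apply hh; simpa [h0] using hPQ.symm
        have key : P ^ 4 + 2 * a * P ^ 2 * Q ^ 2 + (a ^ 2 + 4) * Q ^ 4 = k ^ 2 := by
          rcases hc with ⟨rfl, rfl⟩ | ⟨rfl, rfl⟩ <;> linear_combination hsum + 2 * a * hPQ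
        exact hQ (ih _ (hQlt P Q hPQ hP hQ) P Q k rfl hPQc key)
      · obtain ⟨P, Q, -, hPQ, hc⟩ := split_fourth (X := -X) (Y := -Y) (h := h)
          (neg_pos.mpr hXn) (neg_pos.mpr hYn) (by positivity : (0:ℤ) < a ^ 2 + 4) hXY.neg_neg
          (by simpa [dvd_neg] using hsplit X Y hXY (hprod ▸ dvd_mul_right _ _))
          (by linear_combination hprod)
        have hQ : Q ≠ 0 := by intro h0; apply hh; simpa [h0] using hPQ.symm
        have : (0:ℤ) < Q ^ 4 := by positivity
        nlinarith [sq_nonneg (P ^ 2 - a * Q ^ 2), sq_nonneg k]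
    · -- both odd
      obtain ⟨A, hA⟩ : 2 ∣ U ^ 2 + a * V ^ 2 := by
        have := hU8.1 hU2; have := hV8.1 hV2
        have h1 : a * V ^ 2 % 8 = 3 := by rw [Int.mul_emod, ha, hV8.1 hV2]; norm_num
        omega
      have hW2 : W % 2 = 0 := by
        by_contra hne
        have := hW8.1 (by omega)
        have : W ^ 2 = 4 * (A ^ 2 + (V ^ 2) ^ 2) := by rw [hA] at hform; linear_combination -hform
        omega
      obtain ⟨W', rfl⟩ := Int.dvd_of_emod_eq_zero hW2
      have hAW : A ^ 2 + (V ^ 2) ^ 2 = W' ^ 2 := by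
        rw [hA] at hform
        have : 4 * (A ^ 2 + (V ^ 2) ^ 2) = 4 * W' ^ 2 := by linear_combination hform
        linarith
      have hA4 : A % 4 = 0 := by
        have hV4 : (V ^ 2) ^ 2 % 8 = 1 := (sq_emod_eight (V ^ 2)).1 (by
          have := hV8.1 hV2; omega)
        have hW' := sq_emod_eight W'
        rcases Int.emod_two_eq_zero_or_one A with h | h
        · obtain ⟨A₁, rfl⟩ := Int.dvd_of_emod_eq_zero h
          rcases Int.emod_two_eq_zero_or_one A₁ with h1 | h1
          · omega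
          · exfalso
            have : (2 * A₁) ^ 2 % 8 = 4 := by
              have := (sq_emod_eight A₁).1 h1
              have : (2 * A₁) ^ 2 = 4 * A₁ ^ 2 := by ring
              omega
            rcases Int.emod_two_eq_zero_or_one W' with h2 | h2
            · rcases hW'.2 h2 with h3 | h3 <;> omega
            · have := hW'.1 h2; omega
        · exfalso
          have := (sq_emod_eight A).1 h
          rcases Int.emod_two_eq_zero_or_one W' with h2 | h2
          · rcases hW'.2 h2 with h3 | h3 <;> omega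
          · have := hW'.1 h2; omega
      have h1 : a * V ^ 2 % 8 = 3 := by rw [Int.mul_emod, ha, hV8.1 hV2]; norm_num
      have := hU8.1 hU2
      omega

/-- The quartic of `X₀(13)`. -/
theorem thirteen_quartic {U V W : ℤ} (hUV : IsCoprime U V)
    (h : U ^ 4 + 6 * U ^ 2 * V ^ 2 + 13 * V ^ 4 = W ^ 2) : V = 0 := by
  have hp : Prime (13 : ℤ) := by exact Nat.prime_iff_prime_int.mp (by norm_num : Nat.Prime 13)
  refine eq_zero_of_sq_add_four (a := 3) (N := 13) (by norm_num) (by norm_num) ?_ ?_ U V W hUV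
    (by linear_combination h)
  · intro k h X Y hkh hs hXY
    refine isCoprime_of_prime_dvd ?_ ?_
    · rintro ⟨rfl, rfl⟩
      have hh : h = 0 := by simpa using hXY.symm
      subst hh
      have : k = 0 := by simpa using hs.symm
      subst this
      exact not_isCoprime_zero_zero hkh
    · intro r hr hrX hrY
      have h1 : r * r ∣ 13 * h ^ 4 := hXY ▸ mul_dvd_mul hrX hrY
      have hrh : r ∣ h := by
        by_contra hn
        have hc : IsCoprime (r * r) (h ^ 4) :=
          ((hr.coprime_iff_not_dvd.mpr hn).mul_left (hr.coprime_iff_not_dvd.mpr hn)).pow_right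
        have h13 : r * r ∣ 13 := hc.dvd_of_dvd_mul_right h1
        exact hr.not_isUnit (hp.squarefree r h13)
      have hrk : r ∣ k ^ 2 := by
        have e : k ^ 2 = (X + Y) + 2 * 3 * h ^ 2 := by linarith
        rw [e]
        exact (hrX.add hrY).add (dvd_mul_of_dvd_right (dvd_pow hrh two_ne_zero) _)
      exact not_prime_dvd_both hkh hr (hr.dvd_of_dvd_pow hrk) hrh
  · intro X Y _ hd; exact hp.dvd_or_dvd hd

/-- The quartic of `X₀(5)`. -/
theorem five_quartic {U V W : ℤ} (hUV : IsCoprime U V)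
    (h : U ^ 4 + 22 * U ^ 2 * V ^ 2 + 125 * V ^ 4 = W ^ 2) : V = 0 := by
  have hp : Prime (5 : ℤ) := by exact Nat.prime_iff_prime_int.mp (by norm_num : Nat.Prime 5)
  refine eq_zero_of_sq_add_four (a := 11) (N := 125) (by norm_num) (by norm_num) ?_ ?_ U V W hUV
    (by linear_combination h)
  · intro k h X Y hkh hs hXY
    refine isCoprime_of_prime_dvd ?_ ?_
    · rintro ⟨rfl, rfl⟩
      have hh : h = 0 := by simpa using hXY.symm
      subst hh
      have : k = 0 := by simpa using hs.symm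
      subst this
      exact not_isCoprime_zero_zero hkh
    · intro r hr hrX hrY
      have h1 : r ∣ 125 * h ^ 4 := hXY ▸ dvd_mul_of_dvd_left hrX Y
      have hk2 : r ∣ k ^ 2 - 2 * 11 * h ^ 2 := hs ▸ hrX.add hrY
      have hrh : r ∣ h := by
        rcases hr.dvd_or_dvd h1 with h5 | h5
        · have h5' : r ∣ 5 := hr.dvd_of_dvd_pow (show r ∣ (5:ℤ) ^ 3 by norm_num; exact h5)
          have h55 : (5:ℤ) ∣ r := (hr.associated_of_dvd hp h5').symm.dvd
          have h0 : ((k ^ 2 - 2 * 11 * h ^ 2 : ℤ) : ZMod 5) = 0 :=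
            (ZMod.intCast_zmod_eq_zero_iff_dvd _ 5).mpr (h55.trans hk2)
          have key : ∀ k' h' : ZMod 5, k' ^ 2 - 2 * 11 * h' ^ 2 = 0 → h' = 0 := by decide
          push_cast at h0
          exact h5'.trans ((ZMod.intCast_zmod_eq_zero_iff_dvd _ 5).mp (key _ _ h0))
        · exact hr.dvd_of_dvd_pow h5
      have hrk : r ∣ k ^ 2 := by
        have e : k ^ 2 = (X + Y) + 2 * 11 * h ^ 2 := by linarith
        rw [e]
        exact (hrX.add hrY).add (dvd_mul_of_dvd_right (dvd_pow hrh two_ne_zero) _)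
      exact not_prime_dvd_both hkh hr (hr.dvd_of_dvd_pow hrk) hrh
  · intro X Y hco hd
    by_cases h5 : (5:ℤ) ∣ X
    · left
      have : IsCoprime (125 : ℤ) Y := by
        rw [show (125:ℤ) = 5 ^ 3 by norm_num]
        exact (hp.coprime_iff_not_dvd.mpr fun hY => not_prime_dvd_both hco hp h5 hY).pow_left
      exact this.dvd_of_dvd_mul_right hd
    · right
      have : IsCoprime (125 : ℤ) X := by
        rw [show (125:ℤ) = 5 ^ 3 by norm_num]
        exact (hp.coprime_iff_not_dvd.mpr h5).pow_left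
      exact this.dvd_of_dvd_mul_left hd

end Fermat.Agent.SmallPrimes
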