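import Fermat.Agent.SmallPrimes.Descent

/-!
# The descent on `U⁴ - 11U²V² + 32V⁴ = W²`

`seven_quartic`: besides `V = 0` its only coprime solutions have `U = ±2`, `V = ±1`.
-/

set_option autoImplicit false

namespace Fermat.Agent.SmallPrimes

private lemma prime_dvd_of_sq_dvd_const_mul {r n x : ℤ} (hr : Prime r) (hsq : Squarefree n)
    (h : r * r ∣ n * x ^ 4) : r ∣ x := by
  by_contra hn
  have hc : IsCoprime r x := hr.coprime_iff_not_dvd.mpr hn
  have h2 : r * r ∣ n := (hc.mul_left hc).pow_right.dvd_of_dvd_mul_right h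
  exact hr.not_isUnit (hsq r h2)

/-- From an odd-`P`, odd-`Q` zero of `P⁴ + 22P²Q² - 7Q⁴ = 4U²`, a new solution. -/
private lemma seven_step_odd {P Q U : ℤ} (hPQ : IsCoprime P Q) (hP : P % 2 = 1) (hQ : Q % 2 = 1)
    (h : 4 * U ^ 2 = P ^ 4 + 22 * P ^ 2 * Q ^ 2 - 7 * Q ^ 4) :
    ∃ R S : ℤ, IsCoprime (2 * R) S ∧ S ≠ 0 ∧ (R * S) ^ 2 = Q ^ 2 ∧
      P ^ 2 = 4 * R ^ 4 - 11 * R ^ 2 * S ^ 2 + 8 * S ^ 4 := by
  obtain ⟨M, hM⟩ : 4 ∣ P ^ 2 + 11 * Q ^ 2 := by
    have := (sq_emod_eight P).1 hP; have := (sq_emod_eight Q).1 hQ; omega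
  have hMo : M % 2 = 1 := by
    have := (sq_emod_eight P).1 hP; have := (sq_emod_eight Q).1 hQ; omega
  have hQ0 : Q ≠ 0 := by rintro rfl; simp at hQ
  have h1 : 4 * M ^ 2 - U ^ 2 = 32 * Q ^ 4 := by
    have : 4 * (4 * M ^ 2 - U ^ 2) = 4 * (32 * Q ^ 4) := by
      linear_combination -h - (P ^ 2 + 11 * Q ^ 2 + 4 * M) * hM
    linarith
  obtain ⟨G, rfl⟩ : 2 ∣ U := by
    refine (Int.prime_two.dvd_of_dvd_pow (n := 2) ?_)
    exact ⟨2 * M ^ 2 - 16 * Q ^ 4, by linarith⟩
  have h2 : (M - |G|) * (M + |G|) = 8 * Q ^ 4 := by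
    have e : |G| ^ 2 = G ^ 2 := sq_abs G
    have e2 : M ^ 2 - G ^ 2 = 8 * Q ^ 4 := by linarith [show (2 * G) ^ 2 = 4 * G ^ 2 by ring]
    linear_combination -e + e2
  have hMpos : 0 < M := by nlinarith [sq_nonneg P, mul_self_pos.mpr hQ0]
  have hGo : |G| % 2 = 1 := by
    rcases Int.emod_two_eq_zero_or_one |G| with e | e
    · exfalso
      obtain ⟨G₁, hG₁⟩ := Int.dvd_of_emod_eq_zero e
      have e3 : M ^ 2 = 2 * (4 * Q ^ 4 + 2 * G₁ ^ 2) := by
        rw [hG₁] at h2; linear_combination h2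
      have := (sq_emod_eight M).1 hMo
      omega
    · exact e
  obtain ⟨X, hX⟩ : 2 ∣ M - |G| := by omega
  obtain ⟨Y, hY⟩ : 2 ∣ M + |G| := by omega
  have hXY : X * Y = 2 * Q ^ 4 := by
    have : 4 * (X * Y) = 4 * (2 * Q ^ 4) := by
      linear_combination h2 - (2 * Y) * hX - (M - |G|) * hY
    linarith
  have hs : X + Y = M := by linarith
  have hY0 : 0 < Y := by have := abs_nonneg G; omega
  have hX0 : 0 < X := pos_of_mul_pos_left (by rw [hXY]; positivity) hY0.le
  have hco : IsCoprime X Y := by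
    refine isCoprime_of_prime_dvd (fun h0 => hX0.ne' h0.1) ?_
    intro r hr hrX hrY
    have hrQ : r ∣ Q := prime_dvd_of_sq_dvd_const_mul hr Int.prime_two.squarefree
      (hXY ▸ mul_dvd_mul hrX hrY)
    have : r ∣ P ^ 2 := by
      have e : P ^ 2 = 4 * (X + Y) - 11 * Q ^ 2 := by linarith
      rw [e]
      exact ((hrX.add hrY).mul_left 4).sub ((dvd_pow hrQ two_ne_zero).mul_left 11)
    exact not_prime_dvd_both hPQ hr (hr.dvd_of_dvd_pow this) hrQ
  obtain ⟨R, S, hRS, hRSQ, hc⟩ := split_fourth hX0 hY0 two_pos hco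
    (Int.prime_two.dvd_or_dvd (hXY ▸ dvd_mul_right _ _)) hXY
  have hS0 : S ≠ 0 := by intro h0; apply hQ0; simpa [h0] using hRSQ.symm
  have hSo : S % 2 = 1 := by
    rcases Int.emod_two_eq_zero_or_one S with e | e
    · exfalso
      obtain ⟨S₁, rfl⟩ := Int.dvd_of_emod_eq_zero e
      have : Q ^ 2 = 2 * (2 * (R * S₁) ^ 2) := by linear_combination -hRSQ
      have := (sq_emod_eight Q).1 hQ
      omega
    · exact e
  refine ⟨R, S, ?_, hS0, hRSQ, ?_⟩
  · refine IsCoprime.mul_left ?_ hRS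
    rw [Int.prime_two.coprime_iff_not_dvd]; omega
  · rcases hc with ⟨e1, e2⟩ | ⟨e1, e2⟩ <;>
      linear_combination hM - 4 * hs + 4 * e1 + 4 * e2 + 11 * hRSQ

/-- From a mixed-parity zero of `P⁴ + 22P²Q² - 7Q⁴ = U²`, a new solution. -/
private lemma seven_step_mixed {P Q U : ℤ} (hPQ : IsCoprime P Q) (hQ0 : Q ≠ 0)
    (hpar : (P + Q) % 2 = 1) (h : U ^ 2 = P ^ 4 + 22 * P ^ 2 * Q ^ 2 - 7 * Q ^ 4) :
    ∃ R S : ℤ, IsCoprime R S ∧ S ≠ 0 ∧ R % 2 = 1 ∧ (R * S) ^ 2 = Q ^ 2 ∧
      P ^ 2 = R ^ 4 - 11 * R ^ 2 * S ^ 2 + 32 * S ^ 4 := by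
  set M := P ^ 2 + 11 * Q ^ 2 with hM
  have hMo : M % 2 = 1 := by
    rcases Int.emod_two_eq_zero_or_one P with e | e
    · have := (sq_emod_eight P).2 e; have := (sq_emod_eight Q).1 (by omega); omega
    · have := (sq_emod_eight P).1 e; have := (sq_emod_eight Q).2 (by omega); omega
  have h1 : (M - |U|) * (M + |U|) = 128 * Q ^ 4 := by
    have e : |U| ^ 2 = U ^ 2 := sq_abs U
    rw [hM]; linear_combination -h - e
  have hUo : |U| % 2 = 1 := by
    rcases Int.emod_two_eq_zero_or_one |U| with e | e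
    · exfalso
      obtain ⟨U₁, hU₁⟩ := Int.dvd_of_emod_eq_zero e
      have e3 : M ^ 2 = 2 * (64 * Q ^ 4 + 2 * U₁ ^ 2) := by
        rw [hU₁] at h1; linear_combination h1
      have := (sq_emod_eight M).1 hMo
      omega
    · exact e
  obtain ⟨X, hX⟩ : 2 ∣ M - |U| := by omega
  obtain ⟨Y, hY⟩ : 2 ∣ M + |U| := by omega
  have hXY : X * Y = 32 * Q ^ 4 := by
    have : 4 * (X * Y) = 4 * (32 * Q ^ 4) := by
      linear_combination h1 - (2 * Y) * hX - (M - |U|) * hY
    linarith
  have hs : X + Y = M := by linarith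
  have hY0 : 0 < Y := by
    have := abs_nonneg U
    have : 0 < M := by rw [hM]; nlinarith [sq_nonneg P, mul_self_pos.mpr hQ0]
    omega
  have hX0 : 0 < X := pos_of_mul_pos_left (by rw [hXY]; positivity) hY0.le
  have hco : IsCoprime X Y := by
    refine isCoprime_of_prime_dvd (fun h0 => hX0.ne' h0.1) ?_
    intro r hr hrX hrY
    have hrM : r ∣ M := hs ▸ hrX.add hrY
    have hr2 : ¬ r ∣ 2 := by
      intro h2
      have := (hr.associated_of_dvd Int.prime_two h2).symm.dvd.trans hrM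
      omega
    have hrQ : r ∣ Q := by
      have hd : r ∣ 32 * Q ^ 4 := hXY ▸ dvd_mul_of_dvd_left hrX Y
      rcases hr.dvd_or_dvd hd with e | e
      · exact absurd (hr.dvd_of_dvd_pow (show r ∣ (2:ℤ) ^ 5 by norm_num; exact e)) hr2
      · exact hr.dvd_of_dvd_pow e
    have : r ∣ P ^ 2 := by
      have e : P ^ 2 = M - 11 * Q ^ 2 := by rw [hM]; ring
      rw [e]
      exact hrM.sub ((dvd_pow hrQ two_ne_zero).mul_left 11)
    exact not_prime_dvd_both hPQ hr (hr.dvd_of_dvd_pow this) hrQ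
  have hsplit : (32:ℤ) ∣ X ∨ (32:ℤ) ∣ Y := by
    rw [show (32:ℤ) = 2 ^ 5 by norm_num]
    have hd : (2:ℤ) ^ 5 ∣ X * Y := by rw [hXY]; exact ⟨Q ^ 4, by norm_num⟩
    by_cases h2 : (2:ℤ) ∣ X
    · exact .inl (((Int.prime_two.coprime_iff_not_dvd.mpr
        fun hy => not_prime_dvd_both hco Int.prime_two h2 hy).pow_left).dvd_of_dvd_mul_right hd)
    · exact .inr (((Int.prime_two.coprime_iff_not_dvd.mpr h2).pow_left).dvd_of_dvd_mul_left hd)
  obtain ⟨R, S, hRS, hRSQ, hc⟩ := split_fourth hX0 hY0 (by norm_num) hco hsplit hXY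
  have hS0 : S ≠ 0 := by intro h0; apply hQ0; simpa [h0] using hRSQ.symm
  have hMeq : M = R ^ 4 + 32 * S ^ 4 := by
    rcases hc with ⟨e1, e2⟩ | ⟨e1, e2⟩ <;> linear_combination -hs + e1 + e2
  refine ⟨R, S, hRS, hS0, ?_, hRSQ, ?_⟩
  · rcases Int.emod_two_eq_zero_or_one R with e | e
    · exfalso
      obtain ⟨R₁, rfl⟩ := Int.dvd_of_emod_eq_zero e
      have : M = 2 * (8 * R₁ ^ 4 + 16 * S ^ 4) := by rw [hMeq]; ring
      omega
    · exact e
  · rw [hM] at hMeq; linear_combination hMeq + 11 * hRSQ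

/-- The only coprime solutions with `V ≠ 0` of `U⁴ - 11U²V² + 32V⁴ = W²`. -/
theorem seven_quartic : ∀ U V W : ℤ, IsCoprime U V → V ≠ 0 →
    U ^ 4 - 11 * U ^ 2 * V ^ 2 + 32 * V ^ 4 = W ^ 2 → U.natAbs = 2 ∧ V.natAbs = 1 := by
  suffices ∀ n : ℕ, ∀ U V W : ℤ, V.natAbs = n → IsCoprime U V → V ≠ 0 →
      U ^ 4 - 11 * U ^ 2 * V ^ 2 + 32 * V ^ 4 = W ^ 2 → U.natAbs = 2 ∧ V.natAbs = 1 from
    fun U V W => this _ U V W rfl
  intro n
  induction n using Nat.strong_induction_on with
  | _ n ih =>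
    intro U V W hn hUV hV hW
    wlog hW0 : 0 ≤ W generalizing W
    · exact this (-W) (by linear_combination hW) (by linarith)
    have hV2pos : 0 < V ^ 2 := by positivity
    rcases Int.emod_two_eq_zero_or_one V with hV2 | hV2
    · -- `V` even: impossible
      obtain ⟨h, rfl⟩ := Int.dvd_of_emod_eq_zero hV2
      have hh : h ≠ 0 := by intro e; simp [e] at hV
      have hUo : U % 2 = 1 := by
        by_contra hne
        exact not_prime_dvd_both hUV Int.prime_two (Int.dvd_of_emod_eq_zero (by omega))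
          (dvd_mul_right 2 h)
      have hU8 := (sq_emod_eight U).1 hUo
      have hWo : W % 2 = 1 := by
        by_contra hne
        obtain ⟨W₁, hW₁⟩ := Int.dvd_of_emod_eq_zero (show W % 2 = 0 by omega)
        have h4 := (sq_emod_eight (U ^ 2)).1 (by omega)
        have : (U ^ 2) ^ 2 = 2 * (2 * W₁ ^ 2 + 22 * U ^ 2 * h ^ 2 - 256 * h ^ 4) := by
          rw [hW₁] at hW; linear_combination hW
        omega
      set B := U ^ 2 - 22 * h ^ 2 with hB
      have hBo : B % 2 = 1 := by rw [hB]; omega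
      have h1 : (W - B) * (W + B) = 28 * h ^ 4 := by rw [hB]; linear_combination -hW
      obtain ⟨X, hX⟩ : 2 ∣ W - B := by omega
      obtain ⟨Y, hY⟩ : 2 ∣ W + B := by omega
      have hXY : X * Y = 7 * h ^ 4 := by
        have : 4 * (X * Y) = 4 * (7 * h ^ 4) := by
          linear_combination h1 - (2 * Y) * hX - (W - B) * hY
        linarith
      have hs : X + Y = W := by linarith
      have hd : Y - X = B := by linarith
      have hprod : 0 < X * Y := by rw [hXY]; positivity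
      obtain ⟨hX0, hY0⟩ : 0 < X ∧ 0 < Y := by
        rcases pos_and_pos_or_neg_and_neg_of_mul_pos hprod with e | ⟨e1, e2⟩
        · exact e
        · linarith
      have h7 : Prime (7:ℤ) := Nat.prime_iff_prime_int.mp (by norm_num : Nat.Prime 7)
      have hco : IsCoprime X Y := by
        refine isCoprime_of_prime_dvd (fun h0 => hX0.ne' h0.1) ?_
        intro r hr hrX hrY
        have hrh : r ∣ h := prime_dvd_of_sq_dvd_const_mul hr h7.squarefree
          (hXY ▸ mul_dvd_mul hrX hrY)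
        have : r ∣ U ^ 2 := by
          have e : U ^ 2 = (Y - X) + 22 * h ^ 2 := by rw [hd, hB]; ring
          rw [e]
          exact (hrY.sub hrX).add ((dvd_pow hrh two_ne_zero).mul_left 22)
        exact not_prime_dvd_both hUV hr (hr.dvd_of_dvd_pow this) (hrh.mul_left 2)
      obtain ⟨P, Q, hPQ, hPQh, hc⟩ := split_fourth hX0 hY0 (by norm_num) hco
        (h7.dvd_or_dvd (hXY ▸ dvd_mul_right _ _)) hXY
      have hQ0 : Q ≠ 0 := by intro h0; apply hh; simpa [h0] using hPQh.symm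
      have hP0 : P ≠ 0 := by intro h0; apply hh; simpa [h0] using hPQh.symm
      have hW' : W = P ^ 4 + 7 * Q ^ 4 := by
        rcases hc with ⟨e1, e2⟩ | ⟨e1, e2⟩ <;> linear_combination -hs + e1 + e2
      have hpar : (P + Q) % 2 = 1 := by
        rcases Int.emod_two_eq_zero_or_one P with eP | eP <;>
          rcases Int.emod_two_eq_zero_or_one Q with eQ | eQ <;> try omega
        · exact absurd (Int.dvd_of_emod_eq_zero eQ)
            (fun e => not_prime_dvd_both hPQ Int.prime_two (Int.dvd_of_emod_eq_zero eP) e)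
        · exfalso
          have := (sq_emod_eight (P ^ 2)).1 (by have := (sq_emod_eight P).1 eP; omega)
          have := (sq_emod_eight (Q ^ 2)).1 (by have := (sq_emod_eight Q).1 eQ; omega)
          have : W = (P ^ 2) ^ 2 + 7 * (Q ^ 2) ^ 2 := by rw [hW']; ring
          omega
      rcases hc with ⟨e1, e2⟩ | ⟨e1, e2⟩
      · exfalso
        have hU : U ^ 2 = 22 * (P * Q) ^ 2 + 7 * (Q ^ 2) ^ 2 - (P ^ 2) ^ 2 := by
          linear_combination -hB - hd + e2 - e1 - 22 * hPQh
        have hPQ2 : (P * Q) ^ 2 % 4 = 0 := by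
          have : (P * Q) % 2 = 0 := by
            rcases Int.emod_two_eq_zero_or_one P with eP | eP
            · simp [Int.mul_emod, eP]
            · simp [Int.mul_emod, show Q % 2 = 0 by omega]
          rcases (sq_emod_eight (P * Q)).2 this with e | e <;> omega
        rcases Int.emod_two_eq_zero_or_one P with eP | eP
        · obtain ⟨P₁, rfl⟩ := Int.dvd_of_emod_eq_zero eP
          have := (sq_emod_eight (Q ^ 2)).1 (by have := (sq_emod_eight Q).1 (by omega); omega)
          have : ((2 * P₁) ^ 2) ^ 2 = 8 * (2 * P₁ ^ 4) := by ring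
          omega
        · obtain ⟨Q₁, rfl⟩ := Int.dvd_of_emod_eq_zero (show Q % 2 = 0 by omega)
          have := (sq_emod_eight (P ^ 2)).1 (by have := (sq_emod_eight P).1 eP; omega)
          have : 7 * ((2 * Q₁) ^ 2) ^ 2 = 8 * (14 * Q₁ ^ 4) := by ring
          omega
      · have hU : U ^ 2 = P ^ 4 + 22 * P ^ 2 * Q ^ 2 - 7 * Q ^ 4 := by
          linear_combination -hB - hd + e2 - e1 - 22 * hPQh
        obtain ⟨R, S, hRS, hS0, hRo, hRSQ, hnew⟩ := seven_step_mixed hPQ hQ0 hpar hU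
        have hlt : S.natAbs < n := by
          rw [← hn, Int.natAbs_lt_iff_sq_lt]
          have h1 : (1:ℤ) ≤ R ^ 2 := by
            have := (sq_emod_eight R).1 hRo; have := sq_nonneg R; omega
          have h2 : (1:ℤ) ≤ P ^ 2 := (by positivity : (0:ℤ) < P ^ 2)
          have h3 : S ^ 2 ≤ Q ^ 2 := by
            rw [← hRSQ, mul_pow]; exact le_mul_of_one_le_left (sq_nonneg S) h1
          have h4 : Q ^ 2 ≤ h ^ 2 := by
            rw [← hPQh, mul_pow]; exact le_mul_of_one_le_left (sq_nonneg Q) h2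
          have h5 : (0:ℤ) < h ^ 2 := by positivity
          rw [mul_pow]; linarith
        have := (ih _ hlt R S P rfl hRS hS0 hnew.symm).1
        omega
    · -- `V` odd
      set A := 2 * U ^ 2 - 11 * V ^ 2 with hA
      have hV8 := (sq_emod_eight V).1 hV2
      have h1 : (2 * W - A) * (2 * W + A) = 7 * V ^ 4 := by rw [hA]; linear_combination -4 * hW
      set X := 2 * W - A with hX
      set Y := 2 * W + A with hY
      have hprod : 0 < X * Y := by rw [h1]; positivity
      obtain ⟨hX0, hY0⟩ : 0 < X ∧ 0 < Y := by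
        rcases pos_and_pos_or_neg_and_neg_of_mul_pos hprod with e | ⟨e1, e2⟩
        · exact e
        · linarith
      have h7 : Prime (7:ℤ) := Nat.prime_iff_prime_int.mp (by norm_num : Nat.Prime 7)
      have hco : IsCoprime X Y := by
        refine isCoprime_of_prime_dvd (fun h0 => hX0.ne' h0.1) ?_
        intro r hr hrX hrY
        have hrV : r ∣ V := prime_dvd_of_sq_dvd_const_mul hr h7.squarefree
          (h1 ▸ mul_dvd_mul hrX hrY)
        have hd : r ∣ 4 * U ^ 2 := by
          have e : 4 * U ^ 2 = (Y - X) + 22 * V ^ 2 := by rw [hX, hY, hA]; ring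
          rw [e]
          exact (hrY.sub hrX).add ((dvd_pow hrV two_ne_zero).mul_left 22)
        rcases hr.dvd_or_dvd hd with e | e
        · have e2 : r ∣ 2 := hr.dvd_of_dvd_pow (show r ∣ (2:ℤ) ^ 2 by norm_num; exact e)
          have := (hr.associated_of_dvd Int.prime_two e2).symm.dvd.trans hrV
          omega
        · exact not_prime_dvd_both hUV hr (hr.dvd_of_dvd_pow e) hrV
      obtain ⟨P, Q, hPQ, hPQV, hc⟩ := split_fourth hX0 hY0 (by norm_num) hco
        (h7.dvd_or_dvd (h1 ▸ dvd_mul_right _ _)) h1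
      have hPQo : (P * Q) % 2 = 1 := by
        by_contra hne
        rcases (sq_emod_eight (P * Q)).2 (by omega) with e | e <;> omega
      have hPo : P % 2 = 1 := by
        by_contra hne
        simp [Int.mul_emod, show P % 2 = 0 by omega] at hPQo
      have hQo : Q % 2 = 1 := by
        by_contra hne
        simp [Int.mul_emod, show Q % 2 = 0 by omega] at hPQo
      rcases hc with ⟨e1, e2⟩ | ⟨e1, e2⟩
      · exfalso
        have hU : 4 * U ^ 2 = 22 * (P * Q) ^ 2 + 7 * (Q ^ 2) ^ 2 - (P ^ 2) ^ 2 := by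
          linear_combination -2 * hA + hX - hY + e2 - e1 - 22 * hPQV
        have := odd_sq_emod_sixteen hPQo
        have hp4 : (P ^ 2) ^ 2 % 16 = 1 := by
          rcases odd_sq_emod_sixteen hPo with e | e <;> simp [pow_two (P ^ 2), Int.mul_emod, e]
        have hq4 : (Q ^ 2) ^ 2 % 16 = 1 := by
          rcases odd_sq_emod_sixteen hQo with e | e <;> simp [pow_two (Q ^ 2), Int.mul_emod, e]
        rcases Int.emod_two_eq_zero_or_one U with eU | eU
        · rcases (sq_emod_eight U).2 eU with e | e <;> omega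
        · have := (sq_emod_eight U).1 eU; omega
      · have hU : 4 * U ^ 2 = P ^ 4 + 22 * P ^ 2 * Q ^ 2 - 7 * Q ^ 4 := by
          linear_combination -2 * hA + hX - hY + e2 - e1 - 22 * hPQV
        obtain ⟨R, S, hRS, hS0, hRSQ, hnew⟩ := seven_step_odd hPQ hPo hQo hU
        have hP0 : P ≠ 0 := by rintro rfl; simp at hPo
        have hR0 : R ≠ 0 := by
          rintro rfl
          have : Q ^ 2 = 0 := by rw [← hRSQ]; ring
          have := (sq_emod_eight Q).1 hQo; omega
        have hp1 : (1:ℤ) ≤ P ^ 2 := (by positivity : (0:ℤ) < P ^ 2)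
        have hr1 : (1:ℤ) ≤ R ^ 2 := (by positivity : (0:ℤ) < R ^ 2)
        have hq1 : (1:ℤ) ≤ S ^ 2 := (by positivity : (0:ℤ) < S ^ 2)
        have hSQ : S ^ 2 ≤ Q ^ 2 := by
          rw [← hRSQ, mul_pow]; exact le_mul_of_one_le_left (sq_nonneg S) hr1
        have hQV : Q ^ 2 ≤ V ^ 2 := by
          rw [← hPQV, mul_pow]; exact le_mul_of_one_le_left (sq_nonneg Q) hp1
        have hS1 : S ^ 2 = 1 ∧ R ^ 2 = 1 ∧ P ^ 2 = 1 := by
          rcases (hSQ.trans hQV).lt_or_eq with hlt | heq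
          · have hlt' : S.natAbs < n := by rw [← hn, Int.natAbs_lt_iff_sq_lt]; exact hlt
            obtain ⟨hR, hS⟩ := ih _ hlt' (2 * R) S (2 * P) rfl hRS hS0
              (by linear_combination -4 * hnew)
            have hR' : R ^ 2 = 1 := by
              rw [← Int.natAbs_sq, show R.natAbs = 1 by omega]; rfl
            have hS' : S ^ 2 = 1 := by rw [← Int.natAbs_sq, hS]; rfl
            exact ⟨hS', hR', by rw [hnew, show R ^ 4 = (R ^ 2) ^ 2 by ring,
              show S ^ 4 = (S ^ 2) ^ 2 by ring, hR', hS']; norm_num⟩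
          · have hR' : R ^ 2 = 1 := by
              have : Q ^ 2 = S ^ 2 := le_antisymm (heq ▸ hQV) hSQ
              rw [← hRSQ, mul_pow] at this
              nlinarith
            have hP' : P ^ 2 = 1 := by
              have : Q ^ 2 = V ^ 2 := le_antisymm hQV (heq ▸ hSQ)
              rw [← hPQV, mul_pow] at this
              nlinarith
            have hS' : (8 * S ^ 2 - 3) * (S ^ 2 - 1) = 0 := by
              rw [show R ^ 4 = (R ^ 2) ^ 2 by ring, hR', hP'] at hnew
              linear_combination -hnew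
            rcases mul_eq_zero.mp hS' with e | e
            · omega
            · exact ⟨by linarith, hR', hP'⟩
        obtain ⟨hS', hR', hP'⟩ := hS1
        have hQ' : Q ^ 2 = 1 := by rw [← hRSQ, mul_pow, hR', hS']; rfl
        have hV' : V ^ 2 = 1 := by rw [← hPQV, mul_pow, hP', hQ']; rfl
        have hU' : U ^ 2 = 4 := by
          rw [show P ^ 4 = (P ^ 2) ^ 2 by ring, show Q ^ 4 = (Q ^ 2) ^ 2 by ring, hP', hQ'] at hU
          linarith
        constructor
        · have : (U.natAbs : ℤ) ^ 2 = (2:ℤ) ^ 2 := by rw [Int.natAbs_sq]; linarith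
          exact_mod_cast (sq_eq_sq₀ (Int.natCast_nonneg _) two_pos.le).mp this
        · have : (V.natAbs : ℤ) ^ 2 = (1:ℤ) ^ 2 := by rw [Int.natAbs_sq]; linarith
          exact_mod_cast (sq_eq_sq₀ (Int.natCast_nonneg _) one_pos.le).mp this

end Fermat.Agent.SmallPrimes
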