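import Fermat.Agent.SmallPrimes.TateNormal

/-!
# Small multiples of the marked point of a Tate normal form, and the order relations

`IsOrder.eq_of_five`, `eq_of_seven`, `eq_of_thirteen` are the equations of `X₁(5)`, `X₁(7)` and
`X₁(13)` in the Tate parameters.
-/

set_option autoImplicit false

open WeierstrassCurve WeierstrassCurve.Affine

namespace Fermat.Agent.SmallPrimes

variable {K : Type*} [Field K] [DecidableEq K] {b c : K}

section general

variable {W : WeierstrassCurve K}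

/-- Chord addition with a given slope. -/
lemma add_of_chord {x₁ y₁ x₂ y₂ : K} (h₁ : W.toAffine.Nonsingular x₁ y₁)
    (h₂ : W.toAffine.Nonsingular x₂ y₂) (hx : x₁ ≠ x₂) (l x₃ y₃ : K)
    (hl : l * (x₁ - x₂) = y₁ - y₂)
    (hx₃ : x₃ = l ^ 2 + W.a₁ * l - W.a₂ - x₁ - x₂)
    (hy₃ : y₃ = -(l * (x₃ - x₁) + y₁) - W.a₁ * x₃ - W.a₃) :
    ∃ h₃, Point.some x₁ y₁ h₁ + Point.some x₂ y₂ h₂ = Point.some x₃ y₃ h₃ := by
  have hs : W.toAffine.slope x₁ x₂ y₁ y₂ = l := by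
    rw [Affine.slope_of_X_ne hx, div_eq_iff (sub_ne_zero.mpr hx), hl]
  have ex : x₃ = W.toAffine.addX x₁ x₂ l := hx₃
  subst ex
  have ey : y₃ = W.toAffine.addY x₁ x₂ y₁ l := hy₃
  subst ey
  subst hs
  exact ⟨_, Point.add_of_X_ne hx⟩

/-- Tangent addition with a given slope. -/
lemma add_of_tangent {x₁ y₁ : K} (h₁ : W.toAffine.Nonsingular x₁ y₁)
    (hy : den3 W x₁ y₁ ≠ 0) (l x₃ y₃ : K)
    (hl : l * den3 W x₁ y₁ = 3 * x₁ ^ 2 + 2 * W.a₂ * x₁ + W.a₄ - W.a₁ * y₁)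
    (hx₃ : x₃ = l ^ 2 + W.a₁ * l - W.a₂ - x₁ - x₁)
    (hy₃ : y₃ = -(l * (x₃ - x₁) + y₁) - W.a₁ * x₃ - W.a₃) :
    ∃ h₃, Point.some x₁ y₁ h₁ + Point.some x₁ y₁ h₁ = Point.some x₃ y₃ h₃ := by
  have e : y₁ - W.toAffine.negY x₁ y₁ = den3 W x₁ y₁ := by
    simp only [Affine.negY, den3, WeierstrassCurve.toAffine]; ring
  have hy' : y₁ ≠ W.toAffine.negY x₁ y₁ := sub_ne_zero.mp (e ▸ hy)
  have hs : W.toAffine.slope x₁ x₁ y₁ y₁ = l := by
    rw [Affine.slope_of_Y_ne rfl hy', div_eq_iff (sub_ne_zero.mpr hy'), e, hl]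
  have ex : x₃ = W.toAffine.addX x₁ x₁ l := hx₃
  subst ex
  have ey : y₃ = W.toAffine.addY x₁ x₁ y₁ l := hy₃
  subst ey
  subst hs
  exact ⟨_, Point.add_self_of_Y_ne hy'⟩

omit [DecidableEq K] in
lemma eq_or_eq_neg_of_X {x y x' y' : K} {h : W.toAffine.Nonsingular x y}
    {h' : W.toAffine.Nonsingular x' y'} (e : x = x') :
    Point.some x y h = Point.some x' y' h' ∨ Point.some x y h = -Point.some x' y' h' :=
  Point.X_eq_iff.mp e

omit [DecidableEq K] in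
lemma X_eq_of_eq_neg {x y x' y' : K} {h : W.toAffine.Nonsingular x y}
    {h' : W.toAffine.Nonsingular x' y'} (e : Point.some x y h = -Point.some x' y' h') :
    x = x' :=
  Point.X_eq_iff.mpr (.inr e)

end general

lemma two_nsmul_origin (hb : b ≠ 0) :
    ∃ h, (2 : ℕ) • origin (c := c) hb = Point.some b (b * c) h := by
  rw [two_nsmul]
  refine add_of_tangent _ ?_ 0 _ _ ?_ ?_ ?_ <;> simp only [den3, tateCurve]
  · simpa using hb
  all_goals ring

lemma three_nsmul_origin (hb : b ≠ 0) :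
    ∃ h, (3 : ℕ) • origin (c := c) hb = Point.some c (b - c) h := by
  obtain ⟨h2, e2⟩ := two_nsmul_origin (c := c) hb
  rw [show (3 : ℕ) = 1 + 2 from rfl, add_nsmul, one_nsmul, e2]
  refine add_of_chord _ _ (Ne.symm hb) c _ _ ?_ ?_ ?_ <;> (try simp only [tateCurve]) <;> ring

lemma four_nsmul_origin (hb : b ≠ 0) (hc : c ≠ 0) {r : K} (hr : b = r * c) :
    ∃ h, (4 : ℕ) • origin (c := c) hb = Point.some (r * (r - 1)) (r ^ 2 * (c - r + 1)) h := by
  obtain ⟨h3, e3⟩ := three_nsmul_origin (c := c) hb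
  rw [show (4 : ℕ) = 3 + 1 from rfl, add_nsmul, one_nsmul, e3]
  refine add_of_chord _ _ hc (r - 1) _ _ ?_ ?_ ?_ <;> (try simp only [tateCurve]) <;>
    subst hr <;> ring

/-- `(0, 0)` has order `p` on the Tate normal form with parameters `b`, `c`. -/
def IsOrder (p : ℕ) (b c : K) : Prop := ∃ hb : b ≠ 0, addOrderOf (origin (c := c) hb) = p

lemma IsOrder.nsmul_ne {p n : ℕ} {hb : b ≠ 0} (h : addOrderOf (origin (c := c) hb) = p)
    (h0 : n ≠ 0) (hn : n < p) : n • origin (c := c) hb ≠ 0 := fun e =>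
  (addOrderOf_le_of_nsmul_eq_zero (Nat.pos_of_ne_zero h0) e).not_gt (h ▸ hn)

lemma IsOrder.nsmul_self {p : ℕ} {hb : b ≠ 0} (h : addOrderOf (origin (c := c) hb) = p) :
    p • origin (c := c) hb = 0 := h ▸ addOrderOf_nsmul_eq_zero _

lemma IsOrder.eq_of_five (h : IsOrder 5 b c) : c = b ∧ b ≠ 0 := by
  obtain ⟨hb, ho⟩ := h
  obtain ⟨h2, e2⟩ := two_nsmul_origin (c := c) hb
  obtain ⟨h3, e3⟩ := three_nsmul_origin (c := c) hb
  refine ⟨X_eq_of_eq_neg (h := h3) (h' := h2) ?_, hb⟩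
  rw [eq_neg_iff_add_eq_zero, ← e3, ← e2, ← add_nsmul]
  exact IsOrder.nsmul_self ho

/-- The conditions shared by all orders `≥ 7`. -/
lemma IsOrder.basic {p : ℕ} (hp : 7 ≤ p) (h : IsOrder p b c) :
    b ≠ 0 ∧ c ≠ 0 ∧ b ≠ c ∧ b - c ≠ c ^ 2 := by
  obtain ⟨hb, ho⟩ := h
  obtain ⟨h2, e2⟩ := two_nsmul_origin (c := c) hb
  obtain ⟨h3, e3⟩ := three_nsmul_origin (c := c) hb
  have key : ∀ n, n ≠ 0 → n < p → n • origin (c := c) hb ≠ 0 := fun n => IsOrder.nsmul_ne ho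
  refine ⟨hb, ?_, ?_, ?_⟩
  · intro hc
    rcases eq_or_eq_neg_of_X (h := h3) (h' := nonsingular_origin hb) hc with e | e
    · rw [← e3] at e
      refine key 2 two_ne_zero (by omega) ?_
      have e' : (2 + 1) • origin (c := c) hb = origin hb := e
      rwa [add_nsmul, one_nsmul, add_eq_right] at e'
    · refine key 4 (by omega) (by omega) ?_
      rw [show (4 : ℕ) = 3 + 1 from rfl, add_nsmul, one_nsmul, e3, e]
      exact neg_add_cancel _
  · intro hbc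
    rcases eq_or_eq_neg_of_X (h := h3) (h' := h2) hbc.symm with e | e <;> rw [← e3, ← e2] at e
    · refine key 1 one_ne_zero (by omega) ?_
      rwa [show (3 : ℕ) = 1 + 2 from rfl, add_nsmul, add_eq_right] at e
    · refine key 5 (by omega) (by omega) ?_
      rw [show (5 : ℕ) = 3 + 2 from rfl, add_nsmul, e, neg_add_cancel]
  · intro hy
    refine key 6 (by omega) (by omega) ?_
    rw [show (6 : ℕ) = 3 + 3 from rfl, add_nsmul, e3]
    refine Point.add_self_of_Y_eq ?_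
    simp only [Affine.negY, tateCurve]
    linear_combination hy

lemma IsOrder.eq_of_seven (h : IsOrder 7 b c) :
    b ≠ 0 ∧ c ≠ 0 ∧ b ≠ c ∧ ∃ d : K, b = d ^ 2 * (d - 1) ∧ c = d * (d - 1) := by
  obtain ⟨hb, hc, hbc, -⟩ := h.basic le_rfl
  refine ⟨hb, hc, hbc, b / c, ?_⟩
  obtain ⟨hb, ho⟩ := h
  obtain ⟨h3, e3⟩ := three_nsmul_origin (c := c) hb
  obtain ⟨h4, e4⟩ := four_nsmul_origin hb hc (r := b / c) (by field_simp)
  have he : b / c * (b / c - 1) = c := X_eq_of_eq_neg (h := h4) (h' := h3) (by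
    rw [eq_neg_iff_add_eq_zero, ← e3, ← e4, ← add_nsmul]
    exact IsOrder.nsmul_self ho)
  refine ⟨?_, he.symm⟩
  rw [show (b / c) ^ 2 * (b / c - 1) = b / c * (b / c * (b / c - 1)) by ring, he]
  field_simp

lemma IsOrder.eq_of_thirteen (h : IsOrder 13 b c) :
    ∃ r s : K, b = r * c ∧ c = s * (r - 1) ∧ r ≠ 0 ∧ r ≠ 1 ∧ s ≠ 0 ∧ s ≠ 1 ∧ r ≠ s ∧
      (r - s) ^ 3 = r * (s - 1) ^ 3 * (r * s - 2 * r + 1) := by
  obtain ⟨hb, hc, hbc, hy⟩ := h.basic (by norm_num)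
  obtain ⟨r, rfl⟩ : ∃ r, b = r * c := ⟨b / c, by field_simp⟩
  have hr1 : r ≠ 1 := fun e => hbc (by rw [e, one_mul])
  have hr0 : r ≠ 0 := fun e => hb (by rw [e, zero_mul])
  have hr1' : r - 1 ≠ 0 := sub_ne_zero.mpr hr1
  obtain ⟨s, rfl⟩ : ∃ s, c = s * (r - 1) := ⟨c / (r - 1), by field_simp⟩
  have hs0 : s ≠ 0 := left_ne_zero_of_mul hc
  have hs1 : s ≠ 1 := fun e => hy (by rw [e]; ring)
  refine ⟨r, s, rfl, rfl, hr0, hr1, hs0, hs1, ?_⟩
  obtain ⟨hb, ho⟩ := h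
  obtain ⟨h3, e3⟩ := three_nsmul_origin (c := s * (r - 1)) hb
  obtain ⟨h4, e4⟩ := four_nsmul_origin hb hc (r := r) rfl
  have hrs : r ≠ s := by
    intro e
    rcases eq_or_eq_neg_of_X (h := h4) (h' := h3) (by rw [← e]) with e' | e' <;>
      rw [← e4, ← e3] at e'
    · refine IsOrder.nsmul_ne ho one_ne_zero (by norm_num) ?_
      rwa [show (4 : ℕ) = 1 + 3 from rfl, add_nsmul, add_eq_right] at e'
    · refine IsOrder.nsmul_ne ho (n := 7) (by norm_num) (by norm_num) ?_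
      rw [show (7 : ℕ) = 4 + 3 from rfl, add_nsmul, e', neg_add_cancel]
  refine ⟨hrs, ?_⟩
  have hs1' : 1 - s ≠ 0 := sub_ne_zero.mpr (Ne.symm hs1)
  have hrs' : r - s ≠ 0 := sub_ne_zero.mpr hrs
  obtain ⟨h6, e6⟩ : ∃ h6, (6 : ℕ) • origin (c := s * (r - 1)) hb =
      Point.some (s * (r - 1) * (r - s) / (s - 1) ^ 2) _ h6 := by
    rw [show (6 : ℕ) = 3 + 3 from rfl, add_nsmul, e3]
    refine add_of_tangent _ ?_ ((2 * s - r * s - 1) / (1 - s)) _ _ ?_ ?_ rfl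
    · simp only [den3, tateCurve]
      intro h0
      have : s * (r - 1) * (r - 1) * (1 - s) = 0 := by linear_combination h0
      simp [hc, hr1', hs1'] at this
    · simp only [den3, tateCurve]; field_simp; ring
    · simp only [tateCurve]
      have : s - 1 ≠ 0 := sub_ne_zero.mpr hs1
      field_simp; ring
  obtain ⟨h7, e7⟩ : ∃ h7, (7 : ℕ) • origin (c := s * (r - 1)) hb =
      Point.some (r * s * (r - 1) * (s - 1) * (r * s - 2 * r + 1) / (r - s) ^ 2) _ h7 := by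
    rw [show (7 : ℕ) = 4 + 3 from rfl, add_nsmul, e4, e3]
    refine add_of_chord _ _ ?_ ((r ^ 2 * (s - 1) - s * (r - 1)) / (r - s)) _ _ ?_ ?_ rfl
    · intro h0
      have : (r - 1) * (r - s) = 0 := by linear_combination h0
      simp [hr1', hrs'] at this
    · field_simp; ring
    · simp only [tateCurve]; field_simp; ring
  have hx : r * s * (r - 1) * (s - 1) * (r * s - 2 * r + 1) / (r - s) ^ 2
      = s * (r - 1) * (r - s) / (s - 1) ^ 2 := X_eq_of_eq_neg (h := h7) (h' := h6) (by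
    rw [eq_neg_iff_add_eq_zero, ← e7, ← e6, ← add_nsmul]
    exact IsOrder.nsmul_self ho)
  rw [div_eq_div_iff (pow_ne_zero 2 hrs') (pow_ne_zero 2 (sub_ne_zero.mpr hs1))] at hx
  refine mul_left_cancel₀ hc ?_
  linear_combination -hx

end Fermat.Agent.SmallPrimes
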