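import Fermat.Prelude.Def_FLTPrelim_GaloisRep
import Fermat.Agent.SmallPrimes.Multiples

/-!
# A Galois stable line gives a rational value of an invariant of the Tate parameters

If `f (b, c)` is unchanged under doubling the marked point and `2` generates `(ℤ/p)ˣ` up to sign,
then `f` takes the same value at every nonzero point of the line, so that value is rational
(`exists_rat_val`).
-/

set_option autoImplicit false

open WeierstrassCurve WeierstrassCurve.Affine
open scoped WeierstrassCurve.Affine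

namespace Fermat.Agent.SmallPrimes

variable {K : Type*} [Field K]

/-- The `b`-parameter of `2 • (0, 0)`. -/
def nextB (b c : K) : K := tateB (tateCurve b c) b (b * c)

/-- The `c`-parameter of `2 • (0, 0)`. -/
def nextC (b c : K) : K := tateC (tateCurve b c) b (b * c)

/-- The value of `f` at the Tate parameters of a point (junk `0` at infinity). -/
def pointVal (f : K → K → K) (W : WeierstrassCurve K) : W.toAffine.Point → K
  | 0 => 0
  | .some x y _ => f (tateB W x y) (tateC W x y)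

lemma pointVal_neg (f : K → K → K) (W : WeierstrassCurve K) (P : W.toAffine.Point) :
    pointVal f W (-P) = pointVal f W P := by
  rcases P with _ | ⟨x, y, h⟩
  · rfl
  · rw [Point.neg_some]
    simp only [pointVal]
    rw [(tateB_negY W x y).1, (tateB_negY W x y).2]

variable [DecidableEq K]

/-- The data carried by a point of order `p`. -/
lemma exists_order_params {W : WeierstrassCurve K} (hΔ : W.Δ ≠ 0) {p : ℕ} (hp : 5 ≤ p)
    (f : K → K → K) {P : W.toAffine.Point} (hP : addOrderOf P = p) :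
    ∃ b c, IsOrder p b c ∧ (tateCurve b c).Δ ≠ 0 ∧ pointVal f W P = f b c ∧
      pointVal f W ((2 : ℕ) • P) = f (nextB b c) (nextC b c) ∧
      W.c₄ ^ 3 * (tateCurve b c).Δ = (tateCurve b c).c₄ ^ 3 * W.Δ := by
  have hne : ∀ n, n ≠ 0 → n < p → n • P ≠ 0 := fun n h0 hn e =>
    (addOrderOf_le_of_nsmul_eq_zero (Nat.pos_of_ne_zero h0) e).not_gt (hP ▸ hn)
  rcases P with _ | ⟨x, y, h⟩
  · exact absurd rfl (one_nsmul (0 : W.toAffine.Point) ▸ hne 1 one_ne_zero (by omega))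
  obtain ⟨b, c, hb, C, φ, hb', hc', hW, hφ, hφ0, hφxy⟩ :=
    exists_tateModel W (hne 2 two_ne_zero (by omega)) (hne 3 three_ne_zero (by omega))
  refine ⟨b, c, ⟨hb, ?_⟩, ?_, ?_, ?_, ?_⟩
  · rw [← addOrderOf_injective φ hφ, hφ0, hP]
  · rw [← hW, variableChange_Δ]
    exact mul_ne_zero (pow_ne_zero _ C.u⁻¹.ne_zero) hΔ
  · rw [hb', hc']; rfl
  · obtain ⟨h2, e2⟩ := two_nsmul_origin (c := c) hb
    obtain ⟨X, Y, hXY, e, eb, ec⟩ := hφxy b (b * c) h2
    rw [← hφ0, ← map_nsmul, e2, e]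
    simp only [pointVal, nextB, nextC, eb, ec]
  · rw [← hW, variableChange_c₄, variableChange_Δ]; ring

/-- The parameters of `2 • (0, 0)` again have order `p`. -/
lemma IsOrder.next {p : ℕ} {b c : K} (h : IsOrder p b c) (hp : p.Prime) (hp5 : 5 ≤ p) :
    IsOrder p (nextB b c) (nextC b c) := by
  obtain ⟨hb, ho⟩ := h
  obtain ⟨h2, e2⟩ := two_nsmul_origin (c := c) hb
  have ho2 : addOrderOf ((2 : ℕ) • origin (c := c) hb) = p := by
    rw [addOrderOf_nsmul' _ two_ne_zero, ho,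
      Nat.Coprime.gcd_eq_one (hp.coprime_iff_not_dvd.mpr fun h' => by
        have := Nat.le_of_dvd two_pos h'; omega), Nat.div_one]
  rw [e2] at ho2
  have hne : ∀ n, n ≠ 0 → n < p → n • Point.some b (b * c) h2 ≠ 0 := fun n h0 hn e =>
    (addOrderOf_le_of_nsmul_eq_zero (Nat.pos_of_ne_zero h0) e).not_gt (ho2 ▸ hn)
  obtain ⟨b', c', hb', C, φ, e1, e2', hW, hφ, hφ0, -⟩ :=
    exists_tateModel (tateCurve b c) (hne 2 two_ne_zero (by omega)) (hne 3 three_ne_zero (by omega))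
  subst e1 e2'
  exact ⟨hb', (addOrderOf_injective φ hφ _).symm.trans (hφ0 ▸ ho2)⟩

lemma pointVal_pow_two_nsmul {W : WeierstrassCurve K} (hΔ : W.Δ ≠ 0) {p : ℕ} (hp : p.Prime)
    (hp5 : 5 ≤ p) (f : K → K → K)
    (hinv : ∀ b c, IsOrder p b c → f (nextB b c) (nextC b c) = f b c)
    {P : W.toAffine.Point} (hP : addOrderOf P = p) (i : ℕ) :
    addOrderOf (2 ^ i • P) = p ∧ pointVal f W (2 ^ i • P) = pointVal f W P := by
  induction i with
  | zero => simp [hP]
  | succ i ih =>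
    obtain ⟨b, c, ho, -, e1, e2, -⟩ := exists_order_params hΔ hp5 f ih.1
    rw [pow_succ', mul_nsmul']
    refine ⟨?_, by rw [e2, hinv b c ho, ← e1, ih.2]⟩
    rw [addOrderOf_nsmul' _ two_ne_zero, ih.1,
      Nat.Coprime.gcd_eq_one (hp.coprime_iff_not_dvd.mpr fun h => by
        have := Nat.le_of_dvd two_pos h; omega), Nat.div_one]

lemma pointVal_nsmul {W : WeierstrassCurve K} (hΔ : W.Δ ≠ 0) {p : ℕ} (hp : p.Prime)
    (hp5 : 5 ≤ p) (f : K → K → K)
    (hinv : ∀ b c, IsOrder p b c → f (nextB b c) (nextC b c) = f b c)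
    (hgen : ∀ k, k < p → k ≠ 0 → ∃ i < p, 2 ^ i % p = k ∨ (2 ^ i + k) % p = 0)
    {P : W.toAffine.Point} (hP : addOrderOf P = p) {k : ℕ} (hk : k • P ≠ 0) :
    pointVal f W (k • P) = pointVal f W P := by
  rw [← mod_addOrderOf_nsmul P k, hP] at hk ⊢
  obtain ⟨i, -, hi | hi⟩ := hgen (k % p) (Nat.mod_lt _ hp.pos) (fun e => hk (by rw [e, zero_nsmul]))
  · rw [← hi, ← hP, mod_addOrderOf_nsmul]
    exact (pointVal_pow_two_nsmul hΔ hp hp5 f hinv hP i).2
  · have e : (k % p) • P = -(2 ^ i • P) := by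
      rw [eq_neg_iff_add_eq_zero, ← add_nsmul, add_comm, ← mod_addOrderOf_nsmul P, hP, hi,
        zero_nsmul]
    rw [e, pointVal_neg]
    exact (pointVal_pow_two_nsmul hΔ hp hp5 f hinv hP i).2

section Galois

variable (W : WeierstrassCurve ℚ)

local notation "Qbar" => AlgebraicClosure ℚ

lemma pointVal_smul (f : Qbar → Qbar → Qbar)
    (hmap : ∀ (σ : Qbar ≃ₐ[ℚ] Qbar) (b c : Qbar), σ (f b c) = f (σ b) (σ c))
    (σ : Qbar ≃ₐ[ℚ] Qbar) (P : (W⁄Qbar).Point) :
    pointVal f (W⁄Qbar) (σ • P) = if P = 0 then 0 else σ (pointVal f (W⁄Qbar) P) := by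
  rcases P with _ | ⟨x, y, h⟩
  · rw [if_pos Point.zero_def.symm]; rfl
  · rw [if_neg (Point.some_ne_zero h)]
    show f _ _ = σ (f _ _)
    rw [hmap]
    congr 1 <;>
      simp [tateB, tateC, tanA₁, tanA₂, tanSlope, den3, WeierstrassCurve.baseChange, map_ofNat]

/-- A Galois stable line of order `p` gives a rational value of the invariant `f`. -/
theorem exists_rat_val (hΔ : W.Δ ≠ 0) {p : ℕ} (hp : p.Prime) (hp5 : 5 ≤ p)
    (f : Qbar → Qbar → Qbar)
    (hmap : ∀ (σ : Qbar ≃ₐ[ℚ] Qbar) (b c : Qbar), σ (f b c) = f (σ b) (σ c))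
    (hinv : ∀ b c, IsOrder p b c → f (nextB b c) (nextC b c) = f b c)
    (hgen : ∀ k, k < p → k ≠ 0 → ∃ i < p, 2 ^ i % p = k ∨ (2 ^ i + k) % p = 0)
    {P : (W⁄Qbar).Point} (hP : addOrderOf P = p)
    (hline : ∀ σ : Qbar ≃ₐ[ℚ] Qbar, ∃ k : ℕ, σ • P = k • P) :
    ∃ (t : ℚ) (b c : Qbar), IsOrder p b c ∧ (tateCurve b c).Δ ≠ 0 ∧
      f b c = algebraMap ℚ Qbar t ∧
      algebraMap ℚ Qbar (W.c₄ ^ 3) * (tateCurve b c).Δ =
        (tateCurve b c).c₄ ^ 3 * algebraMap ℚ Qbar W.Δ := by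
  have hΔ' : (W⁄Qbar).Δ ≠ 0 := by
    simpa [WeierstrassCurve.baseChange] using hΔ
  have hP0 : P ≠ 0 := by
    intro e; rw [e, addOrderOf_zero] at hP; omega
  obtain ⟨b, c, ho, hΔt, he, -, hj⟩ := exists_order_params hΔ' hp5 f hP
  have hfix : pointVal f (W⁄Qbar) P ∈ Set.range (algebraMap ℚ Qbar) := by
    have : IsAlgClosure ℚ Qbar := ⟨inferInstance, AlgebraicClosure.isAlgebraic ℚ⟩
    have : IsGalois ℚ Qbar := IsAlgClosure.isGalois ℚ Qbar
    rw [InfiniteGalois.mem_range_algebraMap_iff_fixed]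
    intro σ
    obtain ⟨k, hk⟩ := hline σ
    have hne : k • P ≠ 0 := by
      rw [← hk]; exact (smul_ne_zero_iff_ne σ).mpr hP0
    have := pointVal_smul W f hmap σ P
    rw [hk, if_neg hP0, pointVal_nsmul hΔ' hp hp5 f hinv hgen hP hne] at this
    exact this.symm
  obtain ⟨t, ht⟩ := hfix
  refine ⟨t, b, c, ho, hΔt, he.symm.trans ht.symm, ?_⟩
  simpa [WeierstrassCurve.baseChange] using hj

end Galois

end Fermat.Agent.SmallPrimes
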