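import Fermat.Agent.SmallPrimes.VariableChangePoint

/-!
# Tate normal form at a point of order at least `4`

`exists_tateModel`: such a point is the marked point `(0, 0)` of `y² + (1-c)xy - by = x³ - bx²`,
with `b`, `c` given by `tateB`, `tateC`.
-/

set_option autoImplicit false

open WeierstrassCurve WeierstrassCurve.Affine

namespace Fermat.Agent.SmallPrimes

variable {K : Type*} [Field K]

/-- `∂W/∂Y` at `(x, y)`. -/
def den3 (W : WeierstrassCurve K) (x y : K) : K := 2 * y + W.a₁ * x + W.a₃

/-- The tangent slope at `(x, y)`. -/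
def tanSlope (W : WeierstrassCurve K) (x y : K) : K :=
  (3 * x ^ 2 + 2 * W.a₂ * x + W.a₄ - W.a₁ * y) / den3 W x y

/-- The new `a₁` once the tangent at `(x, y)` is horizontal. -/
def tanA₁ (W : WeierstrassCurve K) (x y : K) : K := W.a₁ + 2 * tanSlope W x y

/-- The new `a₂` once the tangent at `(x, y)` is horizontal. -/
def tanA₂ (W : WeierstrassCurve K) (x y : K) : K :=
  W.a₂ - tanSlope W x y * W.a₁ + 3 * x - tanSlope W x y ^ 2

/-- The parameter `b` of the Tate normal form. -/
def tateB (W : WeierstrassCurve K) (x y : K) : K := -(tanA₂ W x y ^ 3 / den3 W x y ^ 2)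

/-- The parameter `c` of the Tate normal form. -/
def tateC (W : WeierstrassCurve K) (x y : K) : K := 1 - tanA₁ W x y * tanA₂ W x y / den3 W x y

/-- The curve `y² + (1-c)xy - by = x³ - bx²`. -/
def tateCurve (b c : K) : WeierstrassCurve K := ⟨1 - c, -b, -b, 0, 0⟩

lemma nonsingular_origin {b c : K} (hb : b ≠ 0) :
    (tateCurve b c).toAffine.Nonsingular 0 0 := by
  rw [Affine.nonsingular_iff, Affine.equation_iff]
  simp only [tateCurve]
  refine ⟨by ring, .inr ?_⟩
  simpa using fun h => hb (by simpa using h.symm)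

/-- The marked point of the Tate normal form. -/
def origin {b c : K} (hb : b ≠ 0) : (tateCurve b c).toAffine.Point :=
  .some 0 0 (nonsingular_origin hb)

variable (W : WeierstrassCurve K) (C : VariableChange K)

lemma den3_old (x y : K) :
    den3 W (oldX C x) (oldY C x y) = (C.u : K) ^ 3 * den3 (C • W) x y := by
  simp only [den3, oldX, oldY]
  rw [coeff_a₃ W C, coeff_a₁ W C]; ring

lemma tateB_old (x y : K) : tateB W (oldX C x) (oldY C x y) = tateB (C • W) x y ∧
    tateC W (oldX C x) (oldY C x y) = tateC (C • W) x y := by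
  have hu : (C.u : K) ≠ 0 := C.u.ne_zero
  by_cases hd : den3 (C • W) x y = 0
  · simp [tateB, tateC, den3_old, hd]
  have hs : tanSlope W (oldX C x) (oldY C x y) = (C.u : K) * tanSlope (C • W) x y + C.s := by
    rw [tanSlope, tanSlope, den3_old, div_eq_iff (mul_ne_zero (pow_ne_zero 3 hu) hd)]
    have e : ((C.u : K) * ((3 * x ^ 2 + 2 * (C • W).a₂ * x + (C • W).a₄ - (C • W).a₁ * y)
          / den3 (C • W) x y) + C.s) * ((C.u : K) ^ 3 * den3 (C • W) x y)
        = (C.u : K) ^ 4 * (3 * x ^ 2 + 2 * (C • W).a₂ * x + (C • W).a₄ - (C • W).a₁ * y)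
          + C.s * ((C.u : K) ^ 3 * den3 (C • W) x y) := by
      field_simp
    refine Eq.trans ?_ e.symm
    simp only [den3, oldX, oldY]
    rw [coeff_a₄ W C, coeff_a₃ W C, coeff_a₂ W C, coeff_a₁ W C]
    ring
  have h1 : tanA₁ W (oldX C x) (oldY C x y) = (C.u : K) * tanA₁ (C • W) x y := by
    simp only [tanA₁, hs]; rw [coeff_a₁ W C]; ring
  have h2 : tanA₂ W (oldX C x) (oldY C x y) = (C.u : K) ^ 2 * tanA₂ (C • W) x y := by
    simp only [tanA₂, hs]; simp only [oldX]; rw [coeff_a₂ W C, coeff_a₁ W C]; ring
  simp only [tateB, tateC, h1, h2, den3_old]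
  constructor <;> field_simp

/-- `b`, `c` do not change under negation. -/
lemma tateB_negY (x y : K) : tateB W x (W.toAffine.negY x y) = tateB W x y ∧
    tateC W x (W.toAffine.negY x y) = tateC W x y := by
  have hd : den3 W x (W.toAffine.negY x y) = -den3 W x y := by
    simp only [den3, Affine.negY, WeierstrassCurve.toAffine]; ring
  by_cases hd0 : den3 W x y = 0
  · simp only [tateB, tateC, hd, hd0, neg_zero, div_zero, zero_pow two_ne_zero, and_self]
  have hs : tanSlope W x (W.toAffine.negY x y) = -W.a₁ - tanSlope W x y := by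
    rw [tanSlope, tanSlope, hd]
    simp only [Affine.negY, WeierstrassCurve.toAffine]
    field_simp
    simp only [den3]
    ring
  have h1 : tanA₁ W x (W.toAffine.negY x y) = -tanA₁ W x y := by
    simp only [tanA₁, hs]; ring
  have h2 : tanA₂ W x (W.toAffine.negY x y) = tanA₂ W x y := by
    simp only [tanA₂, hs]; ring
  simp only [tateB, tateC, h1, h2, hd]
  constructor <;> field_simp

variable [DecidableEq K]

variable {W} in
lemma den3_ne_zero {x y : K} {h : W.toAffine.Nonsingular x y}
    (h2 : (2 : ℕ) • Point.some x y h ≠ 0) : den3 W x y ≠ 0 := by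
  intro hd
  refine h2 ?_
  rw [two_nsmul]
  refine Point.add_self_of_Y_eq ?_
  simp only [den3] at hd
  simp only [Affine.negY, WeierstrassCurve.toAffine]
  linear_combination hd

variable {W} in
lemma tanA₂_ne_zero {x y : K} {h : W.toAffine.Nonsingular x y}
    (h2 : (2 : ℕ) • Point.some x y h ≠ 0) (h3 : (3 : ℕ) • Point.some x y h ≠ 0) :
    tanA₂ W x y ≠ 0 := by
  intro hA
  set P := Point.some x y h with hP
  have hy : y ≠ W.toAffine.negY x y := fun e =>
    h2 (by rw [two_nsmul]; exact Point.add_self_of_Y_eq e)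
  have hs : W.toAffine.slope x x y y = tanSlope W x y := by
    rw [Affine.slope_of_Y_ne rfl hy, tanSlope, den3]
    simp only [Affine.negY, WeierstrassCurve.toAffine]
    congr 1
    ring
  have hx : W.toAffine.addX x x (W.toAffine.slope x x y y) = x := by
    simp only [tanA₂] at hA
    rw [hs, Affine.addX]
    simp only [WeierstrassCurve.toAffine]
    linear_combination -hA
  have hadd := Point.add_self_of_Y_ne (h₁ := h) hy
  rcases (Point.X_eq_iff (y₁ := W.toAffine.addY x x y (W.toAffine.slope x x y y))
    (h₁ := Affine.nonsingular_add h h fun e => hy e.2) (h₂ := h)).mp hx with e | e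
  · rw [← hadd] at e
    exact Point.some_ne_zero h (add_eq_left.mp e)
  · rw [← hadd] at e
    exact h3 (by rw [show (3 : ℕ) = 2 + 1 from rfl, add_nsmul, two_nsmul, one_nsmul, e]
                 exact neg_add_cancel P)

/-- A point of order at least `4` is the marked point of a Tate normal form. -/
theorem exists_tateModel {x y : K} {h : W.toAffine.Nonsingular x y}
    (h2 : (2 : ℕ) • Point.some x y h ≠ 0) (h3 : (3 : ℕ) • Point.some x y h ≠ 0) :
    ∃ (b c : K) (hb : b ≠ 0) (C : VariableChange K)
      (φ : (tateCurve b c).toAffine.Point →+ W.toAffine.Point),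
      b = tateB W x y ∧ c = tateC W x y ∧ C • W = tateCurve b c ∧ Function.Injective φ ∧
      φ (origin hb) = Point.some x y h ∧
      ∀ (x' y' : K) (h' : (tateCurve b c).toAffine.Nonsingular x' y'), ∃ X Y hXY,
        φ (.some x' y' h') = Point.some X Y hXY ∧
          tateB W X Y = tateB (tateCurve b c) x' y' ∧
          tateC W X Y = tateC (tateCurve b c) x' y' := by
  have hA3 := den3_ne_zero h2
  have hA2 := tanA₂_ne_zero h2 h3
  set C : VariableChange K := ⟨Units.mk0 (den3 W x y / tanA₂ W x y) (div_ne_zero hA3 hA2), x,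
    tanSlope W x y, y⟩ with hC
  have hW : C • W = tateCurve (tateB W x y) (tateC W x y) := by
    have heq := h.1
    rw [Affine.equation_iff] at heq
    have hsl : tanSlope W x y * den3 W x y = 3 * x ^ 2 + 2 * W.a₂ * x + W.a₄ - W.a₁ * y :=
      div_mul_cancel₀ _ hA3
    ext
    · simp only [variableChange_a₁, tateCurve, tateC, hC, Units.val_inv_eq_inv_val, Units.val_mk0,
        tanA₁]
      field_simp; ring
    · simp only [variableChange_a₂, tateCurve, tateB, hC, Units.val_inv_eq_inv_val, Units.val_mk0]
      rw [show W.a₂ - tanSlope W x y * W.a₁ + 3 * x - tanSlope W x y ^ 2 = tanA₂ W x y from rfl]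
      field_simp
    · simp only [variableChange_a₃, tateCurve, tateB, hC, Units.val_inv_eq_inv_val, Units.val_mk0]
      rw [show W.a₃ + x * W.a₁ + 2 * y = den3 W x y by simp only [den3]; ring]
      field_simp
    · simp only [variableChange_a₄, tateCurve, hC, Units.val_inv_eq_inv_val, Units.val_mk0]
      refine mul_eq_zero_of_right _ ?_
      simp only [den3] at hsl
      linear_combination -hsl
    · simp only [variableChange_a₆, tateCurve, hC, Units.val_inv_eq_inv_val, Units.val_mk0]
      refine mul_eq_zero_of_right _ ?_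
      linear_combination -heq
  have hb : tateB W x y ≠ 0 := by
    simp [tateB, hA2, hA3]
  refine ⟨tateB W x y, tateC W x y, hb, C, ?_⟩
  suffices ∀ W', C • W = W' → ∀ h' : W'.toAffine.Nonsingular 0 0,
      ∃ φ : W'.toAffine.Point →+ W.toAffine.Point, Function.Injective φ ∧
        φ (.some 0 0 h') = Point.some x y h ∧
        ∀ (x' y' : K) (h' : W'.toAffine.Nonsingular x' y'), ∃ X Y hXY,
          φ (.some x' y' h') = Point.some X Y hXY ∧
            tateB W X Y = tateB W' x' y' ∧ tateC W X Y = tateC W' x' y' by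
    obtain ⟨φ, h1, h2', h3'⟩ := this _ hW (nonsingular_origin hb)
    exact ⟨φ, rfl, rfl, hW, h1, h2', h3'⟩
  rintro W' rfl h'
  refine ⟨oldPoint W C, oldPoint_injective W C, ?_, fun x' y' h'' =>
    ⟨_, _, _, oldPoint_some W C h'', tateB_old W C x' y'⟩⟩
  rw [oldPoint_some]
  simp [oldX, oldY, hC]

end Fermat.Agent.SmallPrimes
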