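import Fermat.Agent.SmallPrimes.Invariant

/-!
# The Hauptmodul of `X₀(13)` on the Tate normal form

`haupt13` is invariant under doubling the marked point (`haupt13_next`) and determines `j`
(`j_thirteen`).
-/

set_option autoImplicit false

open WeierstrassCurve

namespace Fermat.Agent.SmallPrimes

variable {K : Type*} [Field K]

/-- The hyperelliptic coordinate of `X₁(13)`. -/
def coord13 (b c : K) : K :=
  (1 - b / c) * (1 - c ^ 2 / (b - c)) / (c ^ 2 / (b - c) - b / c)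

/-- The Hauptmodul of `X₀(13)`. -/
def haupt13 (b c : K) : K :=
  -(coord13 b c ^ 3 + 4 * coord13 b c ^ 2 + coord13 b c - 1) / (coord13 b c * (coord13 b c + 1))

lemma c4_tateCurve (b c : K) :
    (tateCurve b c).c₄ = ((1 - c) ^ 2 - 4 * b) ^ 2 + 24 * b * (1 - c) := by
  simp only [tateCurve, c₄, b₂, b₄]; ring

lemma Δ_tateCurve (b c : K) :
    (tateCurve b c).Δ
      = b ^ 3 * (16 * b ^ 2 - 8 * b * c ^ 2 - 20 * b * c + b + c * (c - 1) ^ 3) := by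
  simp only [tateCurve, Δ, b₂, b₄, b₆, b₈]; ring

/-- `c₄` in the coordinates of `X₁(13)`. -/
lemma c4_thirteen_poly {x y : K}
    (hG : y ^ 2 + (x ^ 3 + x ^ 2 + 1) * y - x ^ 2 - x = 0) :
    ((((y + 1) + x * y * (y + 1 - x * y)) ^ 2
        + 4 * (x * y * (1 - x * y) * (y + 1 - x * y)) * (y + 1)) ^ 2
      - 24 * (x * y * (1 - x * y) * (y + 1 - x * y))
          * ((y + 1) + x * y * (y + 1 - x * y)) * (y + 1) ^ 2)
      * (x * (x + 1)) ^ 4 * x * (x + 1) ^ 2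
    = (x ^ 2 + x + 1)
      * ((-(x ^ 3 + 4 * x ^ 2 + x - 1)) ^ 4
        + 7 * (-(x ^ 3 + 4 * x ^ 2 + x - 1)) ^ 3 * (x * (x + 1))
        + 20 * (-(x ^ 3 + 4 * x ^ 2 + x - 1)) ^ 2 * (x * (x + 1)) ^ 2
        + 19 * (-(x ^ 3 + 4 * x ^ 2 + x - 1)) * (x * (x + 1)) ^ 3 + (x * (x + 1)) ^ 4)
      * y ^ 5 * ((x + 1) ^ 2 - (x ^ 2 - x - 1) * y) * (y + 1) ^ 3 := by
  linear_combination ((-1) * y ^ 4 + (-3) * y ^ 5 + (-3) * y ^ 6 + (-1) * y ^ 7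
      + (-1) * x ^ 1 * y ^ 3
      + (-8) * x ^ 1 * y ^ 4 + (-18) * x ^ 1 * y ^ 5 + (-16) * x ^ 1 * y ^ 6 + (-5) * x ^ 1 * y ^ 7
      + (-1) * x ^ 2 * y ^ 2 + (-8) * x ^ 2 * y ^ 3 + (-21) * x ^ 2 * y ^ 4 + (-25) * x ^ 2 * y ^ 5
      + (-14) * x ^ 2 * y ^ 6 + (-3) * x ^ 2 * y ^ 7 + (-1) * x ^ 3 * y ^ 1 + (-8) * x ^ 3 * y ^ 2
      + (-20) * x ^ 3 * y ^ 3 + (8) * x ^ 3 * y ^ 4 + (79) * x ^ 3 * y ^ 5 + (88) * x ^ 3 * y ^ 6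
      + (30) * x ^ 3 * y ^ 7 + (-1) * x ^ 4 + (-8) * x ^ 4 * y ^ 1 + (-19) * x ^ 4 * y ^ 2
      + (15) * x ^ 4 * y ^ 3 + (172) * x ^ 4 * y ^ 4 + (335) * x ^ 4 * y ^ 5
      + (268) * x ^ 4 * y ^ 6 + (78) * x ^ 4 * y ^ 7 + (-5) * x ^ 5 + (-15) * x ^ 5 * y ^ 1
      + (23) * x ^ 5 * y ^ 2 + (186) * x ^ 5 * y ^ 3 + (397) * x ^ 5 * y ^ 4
      + (425) * x ^ 5 * y ^ 5 + (233) * x ^ 5 * y ^ 6 + (52) * x ^ 5 * y ^ 7 + (-10) * x ^ 6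
      + (11) * x ^ 6 * y ^ 1 + (169) * x ^ 6 * y ^ 2 + (363) * x ^ 6 * y ^ 3
      + (270) * x ^ 6 * y ^ 4 + (-53) * x ^ 6 * y ^ 5 + (-173) * x ^ 6 * y ^ 6
      + (-65) * x ^ 6 * y ^ 7 + (-10) * x ^ 7 + (69) * x ^ 7 * y ^ 1 + (260) * x ^ 7 * y ^ 2
      + (149) * x ^ 7 * y ^ 3 + (-416) * x ^ 7 * y ^ 4 + (-787) * x ^ 7 * y ^ 5
      + (-546) * x ^ 7 * y ^ 6 + (-143) * x ^ 7 * y ^ 7 + (-5) * x ^ 8 + (90) * x ^ 8 * y ^ 1
      + (110) * x ^ 8 * y ^ 2 + (-389) * x ^ 8 * y ^ 3 + (-983) * x ^ 8 * y ^ 4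
      + (-956) * x ^ 8 * y ^ 5 + (-494) * x ^ 8 * y ^ 6 + (-117) * x ^ 8 * y ^ 7 + (-1) * x ^ 9
      + (51) * x ^ 9 * y ^ 1 + (-96) * x ^ 9 * y ^ 2 + (-565) * x ^ 9 * y ^ 3
      + (-728) * x ^ 9 * y ^ 4 + (-484) * x ^ 9 * y ^ 5 + (-251) * x ^ 9 * y ^ 6
      + (-78) * x ^ 9 * y ^ 7 + (11) * x ^ 10 * y ^ 1 + (-111) * x ^ 10 * y ^ 2
      + (-244) * x ^ 10 * y ^ 3 + (-122) * x ^ 10 * y ^ 4 + (-114) * x ^ 10 * y ^ 5
      + (-205) * x ^ 10 * y ^ 6 + (-91) * x ^ 10 * y ^ 7 + (-31) * x ^ 11 * y ^ 2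
      + (13) * x ^ 11 * y ^ 3 + (90) * x ^ 11 * y ^ 4 + (-127) * x ^ 11 * y ^ 5
      + (-264) * x ^ 11 * y ^ 6 + (-91) * x ^ 11 * y ^ 7 + (25) * x ^ 12 * y ^ 3
      + (18) * x ^ 12 * y ^ 4 + (-157) * x ^ 12 * y ^ 5 + (-177) * x ^ 12 * y ^ 6
      + (-26) * x ^ 12 * y ^ 7 + (-10) * x ^ 13 * y ^ 4 + (-71) * x ^ 13 * y ^ 5
      + (-36) * x ^ 13 * y ^ 6 + (29) * x ^ 13 * y ^ 7 + (-9) * x ^ 14 * y ^ 5
      + (13) * x ^ 14 * y ^ 6 + (28) * x ^ 14 * y ^ 7 + (5) * x ^ 15 * y ^ 6 + (9) * x ^ 15 * y ^ 7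
      + (1) * x ^ 16 * y ^ 7) * hG

/-- `Δ` in the coordinates of `X₁(13)`. -/
lemma Δ_thirteen_poly {x y : K}
    (hG : y ^ 2 + (x ^ 3 + x ^ 2 + 1) * y - x ^ 2 - x = 0) :
    (1 - x * y) ^ 3 * (y + 1 - x * y) ^ 3
      * (16 * (x * y * (1 - x * y) * (y + 1 - x * y)) ^ 2 * (y + 1) ^ 2
        + 8 * (x * y * (1 - x * y) * (y + 1 - x * y)) * (x * y * (y + 1 - x * y)) ^ 2 * (y + 1)
        - 20 * (x * y * (1 - x * y) * (y + 1 - x * y)) * (x * y * (y + 1 - x * y)) * (y + 1) ^ 2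
        - (x * y * (1 - x * y) * (y + 1 - x * y)) * (y + 1) ^ 3
        + (x * y * (y + 1 - x * y)) * ((x * y * (y + 1 - x * y)) + (y + 1)) ^ 3)
      * x ^ 5 * (x + 1) ^ 6
    = (x + 1) * (x ^ 3 + 4 * x ^ 2 + x - 1) * y ^ 12
      * ((x + 1) ^ 2 - (x ^ 2 - x - 1) * y) ^ 3 * (y + 1) ^ 4 := by
  linear_combination -1 * ((-1) * y ^ 11 + (-6) * y ^ 12 + (-15) * y ^ 13 + (-20) * y ^ 14
      + (-15) * y ^ 15
      + (-6) * y ^ 16 + (-1) * y ^ 17 + (-1) * x ^ 1 * y ^ 10 + (-11) * x ^ 1 * y ^ 11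
      + (-43) * x ^ 1 * y ^ 12 + (-85) * x ^ 1 * y ^ 13 + (-95) * x ^ 1 * y ^ 14
      + (-61) * x ^ 1 * y ^ 15 + (-21) * x ^ 1 * y ^ 16 + (-3) * x ^ 1 * y ^ 17
      + (-1) * x ^ 2 * y ^ 9 + (-11) * x ^ 2 * y ^ 10 + (-47) * x ^ 2 * y ^ 11
      + (-99) * x ^ 2 * y ^ 12 + (-106) * x ^ 2 * y ^ 13 + (-45) * x ^ 2 * y ^ 14
      + (13) * x ^ 2 * y ^ 15 + (19) * x ^ 2 * y ^ 16 + (5) * x ^ 2 * y ^ 17 + (-1) * x ^ 3 * y ^ 8
      + (-11) * x ^ 3 * y ^ 9 + (-46) * x ^ 3 * y ^ 10 + (-69) * x ^ 3 * y ^ 11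
      + (59) * x ^ 3 * y ^ 12 + (360) * x ^ 3 * y ^ 13 + (548) * x ^ 3 * y ^ 14
      + (415) * x ^ 3 * y ^ 15 + (160) * x ^ 3 * y ^ 16 + (25) * x ^ 3 * y ^ 17
      + (-1) * x ^ 4 * y ^ 7 + (-11) * x ^ 4 * y ^ 8 + (-45) * x ^ 4 * y ^ 9
      + (-59) * x ^ 4 * y ^ 10 + (168) * x ^ 4 * y ^ 11 + (808) * x ^ 4 * y ^ 12
      + (1431) * x ^ 4 * y ^ 13 + (1353) * x ^ 4 * y ^ 14 + (703) * x ^ 4 * y ^ 15
      + (181) * x ^ 4 * y ^ 16 + (16) * x ^ 4 * y ^ 17 + (-1) * x ^ 5 * y ^ 6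
      + (-11) * x ^ 5 * y ^ 7 + (-44) * x ^ 5 * y ^ 8 + (-49) * x ^ 5 * y ^ 9
      + (205) * x ^ 5 * y ^ 10 + (953) * x ^ 5 * y ^ 11 + (1827) * x ^ 5 * y ^ 12
      + (1908) * x ^ 5 * y ^ 13 + (1044) * x ^ 5 * y ^ 14 + (192) * x ^ 5 * y ^ 15
      + (-63) * x ^ 5 * y ^ 16 + (-25) * x ^ 5 * y ^ 17 + (-1) * x ^ 6 * y ^ 5
      + (-11) * x ^ 6 * y ^ 6 + (-43) * x ^ 6 * y ^ 7 + (-39) * x ^ 6 * y ^ 8
      + (241) * x ^ 6 * y ^ 9 + (985) * x ^ 6 * y ^ 10 + (1740) * x ^ 6 * y ^ 11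
      + (1593) * x ^ 6 * y ^ 12 + (486) * x ^ 6 * y ^ 13 + (-454) * x ^ 6 * y ^ 14
      + (-519) * x ^ 6 * y ^ 15 + (-194) * x ^ 6 * y ^ 16 + (-24) * x ^ 6 * y ^ 17
      + (-1) * x ^ 7 * y ^ 4 + (-11) * x ^ 7 * y ^ 5 + (-42) * x ^ 7 * y ^ 6
      + (-29) * x ^ 7 * y ^ 7 + (276) * x ^ 7 * y ^ 8 + (1008) * x ^ 7 * y ^ 9
      + (1539) * x ^ 7 * y ^ 10 + (885) * x ^ 7 * y ^ 11 + (-668) * x ^ 7 * y ^ 12
      + (-1565) * x ^ 7 * y ^ 13 + (-1165) * x ^ 7 * y ^ 14 + (-386) * x ^ 7 * y ^ 15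
      + (-27) * x ^ 7 * y ^ 16 + (10) * x ^ 7 * y ^ 17 + (-6) * x ^ 8 * y ^ 4
      + (-31) * x ^ 8 * y ^ 5 + (-9) * x ^ 8 * y ^ 6 + (315) * x ^ 8 * y ^ 7
      + (1023) * x ^ 8 * y ^ 8 + (1310) * x ^ 8 * y ^ 9 + (125) * x ^ 8 * y ^ 10
      + (-1843) * x ^ 8 * y ^ 11 + (-2519) * x ^ 8 * y ^ 12 + (-1443) * x ^ 8 * y ^ 13
      + (-208) * x ^ 8 * y ^ 14 + (170) * x ^ 8 * y ^ 15 + (82) * x ^ 8 * y ^ 16
      + (10) * x ^ 8 * y ^ 17 + (-15) * x ^ 9 * y ^ 4 + (-11) * x ^ 9 * y ^ 5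
      + (270) * x ^ 9 * y ^ 6 + (926) * x ^ 9 * y ^ 7 + (997) * x ^ 9 * y ^ 8
      + (-651) * x ^ 9 * y ^ 9 + (-2843) * x ^ 9 * y ^ 10 + (-2958) * x ^ 9 * y ^ 11
      + (-955) * x ^ 9 * y ^ 12 + (646) * x ^ 9 * y ^ 13 + (715) * x ^ 9 * y ^ 14
      + (242) * x ^ 9 * y ^ 15 + (23) * x ^ 9 * y ^ 16 + (-2) * x ^ 9 * y ^ 17
      + (-20) * x ^ 10 * y ^ 4 + (95) * x ^ 10 * y ^ 5 + (591) * x ^ 10 * y ^ 6
      + (594) * x ^ 10 * y ^ 7 + (-1279) * x ^ 10 * y ^ 8 + (-3511) * x ^ 10 * y ^ 9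
      + (-2798) * x ^ 10 * y ^ 10 + (313) * x ^ 10 * y ^ 11 + (2078) * x ^ 10 * y ^ 12
      + (1434) * x ^ 10 * y ^ 13 + (348) * x ^ 10 * y ^ 14 + (-24) * x ^ 10 * y ^ 15
      + (-20) * x ^ 10 * y ^ 16 + (-1) * x ^ 10 * y ^ 17 + (-15) * x ^ 11 * y ^ 4
      + (199) * x ^ 11 * y ^ 5 + (354) * x ^ 11 * y ^ 6 + (-1134) * x ^ 11 * y ^ 7
      + (-3268) * x ^ 11 * y ^ 8 + (-1953) * x ^ 11 * y ^ 9 + (2124) * x ^ 11 * y ^ 10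
      + (3686) * x ^ 11 * y ^ 11 + (1840) * x ^ 11 * y ^ 12 + (20) * x ^ 11 * y ^ 13
      + (-309) * x ^ 11 * y ^ 14 + (-100) * x ^ 11 * y ^ 15 + (-8) * x ^ 11 * y ^ 16
      + (-6) * x ^ 12 * y ^ 4 + (179) * x ^ 12 * y ^ 5 + (-327) * x ^ 12 * y ^ 6
      + (-1979) * x ^ 12 * y ^ 7 + (-938) * x ^ 12 * y ^ 8 + (3470) * x ^ 12 * y ^ 9
      + (4727) * x ^ 12 * y ^ 10 + (1421) * x ^ 12 * y ^ 11 + (-1084) * x ^ 12 * y ^ 12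
      + (-948) * x ^ 12 * y ^ 13 + (-239) * x ^ 12 * y ^ 14 + (-7) * x ^ 12 * y ^ 15
      + (3) * x ^ 12 * y ^ 16 + (-1) * x ^ 13 * y ^ 4 + (79) * x ^ 13 * y ^ 5
      + (-609) * x ^ 13 * y ^ 6 + (-595) * x ^ 13 * y ^ 7 + (2759) * x ^ 13 * y ^ 8
      + (4177) * x ^ 13 * y ^ 9 + (112) * x ^ 13 * y ^ 10 + (-2845) * x ^ 13 * y ^ 11
      + (-1749) * x ^ 13 * y ^ 12 + (-238) * x ^ 13 * y ^ 13 + (92) * x ^ 13 * y ^ 14
      + (27) * x ^ 13 * y ^ 15 + (1) * x ^ 13 * y ^ 16 + (14) * x ^ 14 * y ^ 5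
      + (-340) * x ^ 14 * y ^ 6 + (817) * x ^ 14 * y ^ 7 + (2378) * x ^ 14 * y ^ 8
      + (-716) * x ^ 14 * y ^ 9 + (-3938) * x ^ 14 * y ^ 10 + (-2095) * x ^ 14 * y ^ 11
      + (281) * x ^ 14 * y ^ 12 + (462) * x ^ 14 * y ^ 13 + (106) * x ^ 14 * y ^ 14
      + (5) * x ^ 14 * y ^ 15 + (-68) * x ^ 15 * y ^ 6 + (715) * x ^ 15 * y ^ 7
      + (-155) * x ^ 15 * y ^ 8 + (-2832) * x ^ 15 * y ^ 9 + (-1543) * x ^ 15 * y ^ 10
      + (1261) * x ^ 15 * y ^ 11 + (1116) * x ^ 15 * y ^ 12 + (194) * x ^ 15 * y ^ 13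
      + (-15) * x ^ 15 * y ^ 14 + (-4) * x ^ 15 * y ^ 15 + (169) * x ^ 16 * y ^ 7
      + (-814) * x ^ 16 * y ^ 8 + (-799) * x ^ 16 * y ^ 9 + (1433) * x ^ 16 * y ^ 10
      + (1466) * x ^ 16 * y ^ 11 + (88) * x ^ 16 * y ^ 12 + (-166) * x ^ 16 * y ^ 13
      + (-31) * x ^ 16 * y ^ 14 + (-1) * x ^ 16 * y ^ 15 + (-244) * x ^ 17 * y ^ 8
      + (471) * x ^ 17 * y ^ 9 + (957) * x ^ 17 * y ^ 10 + (-147) * x ^ 17 * y ^ 11
      + (-462) * x ^ 17 * y ^ 12 + (-95) * x ^ 17 * y ^ 13 + (-1) * x ^ 17 * y ^ 14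
      + (211) * x ^ 18 * y ^ 9 + (-64) * x ^ 18 * y ^ 10 + (-465) * x ^ 18 * y ^ 11
      + (-120) * x ^ 18 * y ^ 12 + (40) * x ^ 18 * y ^ 13 + (5) * x ^ 18 * y ^ 14
      + (-104) * x ^ 19 * y ^ 10 + (-75) * x ^ 19 * y ^ 11 + (94) * x ^ 19 * y ^ 12
      + (31) * x ^ 19 * y ^ 13 + (1) * x ^ 19 * y ^ 14 + (23) * x ^ 20 * y ^ 11
      + (40) * x ^ 20 * y ^ 12 + (-4) * x ^ 20 * y ^ 13 + (1) * x ^ 21 * y ^ 12
      + (-6) * x ^ 21 * y ^ 13 + (-1) * x ^ 22 * y ^ 13) * hG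

/-- The basic facts about the coordinate `x` at a pair of order `13`. -/
lemma coord13_facts [DecidableEq K] {b c : K} (h : IsOrder 13 b c) :
    ∃ r s : K, b = r * c ∧ c = s * (r - 1) ∧ r ≠ 0 ∧ r ≠ 1 ∧ s ≠ 0 ∧ s ≠ 1 ∧ r ≠ s ∧
      (r - s) ^ 3 = r * (s - 1) ^ 3 * (r * s - 2 * r + 1) ∧
      r * s - 2 * r + 1 ≠ 0 ∧ coord13 b c = (1 - r) * (1 - s) / (s - r) := by
  obtain ⟨r, s, rfl, rfl, hr0, hr1, hs0, hs1, hrs, hF⟩ := h.eq_of_thirteen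
  refine ⟨r, s, rfl, rfl, hr0, hr1, hs0, hs1, hrs, hF, ?_, ?_⟩
  · intro h0
    rw [h0, mul_zero] at hF
    exact hrs (sub_eq_zero.mp (pow_eq_zero_iff three_ne_zero |>.mp hF))
  · have h1 : r - 1 ≠ 0 := sub_ne_zero.mpr hr1
    have e1 : r * (s * (r - 1)) / (s * (r - 1)) = r := by field_simp
    have e2 : (s * (r - 1)) ^ 2 / (r * (s * (r - 1)) - s * (r - 1)) = s := by
      rw [show r * (s * (r - 1)) - s * (r - 1) = s * (r - 1) ^ 2 by ring]; field_simp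
    simp only [coord13, e1, e2]

lemma coord13_next [DecidableEq K] {b c : K} (h : IsOrder 13 b c) :
    coord13 (nextB b c) (nextC b c) = -(coord13 b c + 1) / coord13 b c := by
  obtain ⟨r, s, rfl, rfl, hr0, hr1, hs0, hs1, hrs, hF, hN, hx⟩ := coord13_facts h
  have h1 : r - 1 ≠ 0 := sub_ne_zero.mpr hr1
  have h2 : s - 1 ≠ 0 := sub_ne_zero.mpr hs1
  have hc : s * (r - 1) ≠ 0 := mul_ne_zero hs0 h1
  set n := 2 * r - r * s - 1 with hn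
  have hn0 : n ≠ 0 := fun e => hN (by linear_combination -e)
  have hd : den3 (tateCurve (r * (s * (r - 1))) (s * (r - 1))) (r * (s * (r - 1)))
      (r * (s * (r - 1)) * (s * (r - 1))) = r * (s * (r - 1)) ^ 2 := by
    simp only [den3, tateCurve]; ring
  have hl : tanSlope (tateCurve (r * (s * (r - 1))) (s * (r - 1))) (r * (s * (r - 1)))
      (r * (s * (r - 1)) * (s * (r - 1))) = (r - 1) * (1 + s) := by
    rw [tanSlope, hd, div_eq_iff (by simp [hr0, hc])]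
    simp only [tateCurve]; ring
  have hA : tanA₂ (tateCurve (r * (s * (r - 1))) (s * (r - 1))) (r * (s * (r - 1)))
      (r * (s * (r - 1)) * (s * (r - 1))) = r * (r - 1) * (s - 1) := by
    rw [tanA₂, hl]; simp only [tateCurve]; ring
  have hA' : tanA₁ (tateCurve (r * (s * (r - 1))) (s * (r - 1))) (r * (s * (r - 1)))
      (r * (s * (r - 1)) * (s * (r - 1))) = (r - 1) * (s + 2) + 1 := by
    rw [tanA₁, hl]; simp only [tateCurve]; ring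
  have hB : nextB (r * (s * (r - 1))) (s * (r - 1))
      = -(r * (s - 1) ^ 3) / (s ^ 4 * (r - 1)) := by
    rw [nextB, tateB, hA, hd]; field_simp
  have hC : nextC (r * (s * (r - 1))) (s * (r - 1)) = n / (s ^ 2 * (r - 1)) := by
    rw [nextC, tateC, hA', hA, hd, hn]; field_simp; ring
  -- the new `r` and `s`
  have hr' : nextB (r * (s * (r - 1))) (s * (r - 1)) / nextC (r * (s * (r - 1))) (s * (r - 1))
      = -(r * (s - 1) ^ 3) / (s ^ 2 * n) := by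
    rw [hB, hC]; field_simp
  have hbc : nextB (r * (s * (r - 1))) (s * (r - 1)) - nextC (r * (s * (r - 1))) (s * (r - 1))
      = -(r * (s - 1) ^ 3 + s ^ 2 * n) / (s ^ 4 * (r - 1)) := by
    rw [hB, hC]; field_simp; ring
  rw [hx, coord13, hr', hbc, hC]
  generalize hEdef : r * (s - 1) ^ 3 + s ^ 2 * n = E
  have hE0 : E ≠ 0 := by
    intro h0
    have hord : IsOrder 13 (nextB (r * (s * (r - 1))) (s * (r - 1)))
        (nextC (r * (s * (r - 1))) (s * (r - 1))) := h.next (by norm_num) (by norm_num)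
    obtain ⟨r', s', e1, e2, -, hr1', hs0', -⟩ := coord13_facts hord
    apply hr1'
    rw [hEdef, h0, neg_zero, zero_div, e1] at hbc
    have hc' : nextC (r * (s * (r - 1))) (s * (r - 1)) ≠ 0 := by
      rw [hC]; simp [hn0, hs0, h1]
    have : (r' - 1) * nextC (r * (s * (r - 1))) (s * (r - 1)) = 0 := by linear_combination hbc
    exact sub_eq_zero.mp ((mul_eq_zero.mp this).resolve_right hc')
  have hden : (n / (s ^ 2 * (r - 1))) ^ 2 / (-E / (s ^ 4 * (r - 1)))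
      = -(n ^ 2) / ((r - 1) * E) := by field_simp
  rw [hden]
  have key : E * ((r - 1) * E + n * n) * (r - 1) * (s - 1)
      = n * (-(n * n) * (s ^ 2 * n) + r * (s - 1) ^ 3 * ((r - 1) * E)) := by
    rw [← hEdef, hn]
    linear_combination (r - s ^ 2 + s - 1) * hF
  have hsr : -(n * n) * (s ^ 2 * n) + r * (s - 1) ^ 3 * ((r - 1) * E) ≠ 0 := by
    intro h0
    rw [h0, mul_zero] at key
    have h5 : (r - 1) * E + n * n = 0 := by simpa [hE0, h1, h2] using key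
    have h6 : (r - 1) * E = -(n * n) := by linear_combination h5
    rw [h6] at h0
    have h7 : -(n * n) * E = 0 := by rw [← hEdef]; linear_combination h0
    simp [hn0, hE0] at h7
  have e1 : 1 - -(r * (s - 1) ^ 3) / (s ^ 2 * n) = E / (s ^ 2 * n) := by
    rw [← hEdef]; field_simp; ring
  have e2 : 1 - -(n ^ 2) / ((r - 1) * E) = ((r - 1) * E + n * n) / ((r - 1) * E) := by
    field_simp; ring
  have e3 : -(n ^ 2) / ((r - 1) * E) - -(r * (s - 1) ^ 3) / (s ^ 2 * n)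
      = (-(n * n) * (s ^ 2 * n) + r * (s - 1) ^ 3 * ((r - 1) * E))
        / (s ^ 2 * n * ((r - 1) * E)) := by
    field_simp; ring
  have e4 : -((1 - r) * (1 - s) / (s - r) + 1) / ((1 - r) * (1 - s) / (s - r))
      = n / ((r - 1) * (s - 1)) := by
    have : (1 - r : K) ≠ 0 := sub_ne_zero.mpr (Ne.symm hr1)
    have : (1 - s : K) ≠ 0 := sub_ne_zero.mpr (Ne.symm hs1)
    rw [hn]; field_simp; ring
  rw [e1, e2, e3, e4]
  generalize hS : -(n * n) * (s ^ 2 * n) + r * (s - 1) ^ 3 * ((r - 1) * E) = S at key hsr ⊢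
  field_simp
  linear_combination key

lemma coord13_ne_zero [DecidableEq K] {b c : K} (h : IsOrder 13 b c) :
    coord13 b c ≠ 0 ∧ coord13 b c + 1 ≠ 0 := by
  obtain ⟨r, s, rfl, rfl, hr0, hr1, hs0, hs1, hrs, hF, hN, hx⟩ := coord13_facts h
  have h3 : s - r ≠ 0 := sub_ne_zero.mpr (Ne.symm hrs)
  rw [hx]
  refine ⟨div_ne_zero (mul_ne_zero (sub_ne_zero.mpr (Ne.symm hr1))
    (sub_ne_zero.mpr (Ne.symm hs1))) h3, ?_⟩
  rw [div_add_one h3]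
  refine div_ne_zero (fun e => hN ?_) h3
  linear_combination e

theorem haupt13_next [DecidableEq K] {b c : K} (h : IsOrder 13 b c) :
    haupt13 (nextB b c) (nextC b c) = haupt13 b c := by
  obtain ⟨hx0, hx1⟩ := coord13_ne_zero h
  simp only [haupt13, coord13_next h]
  generalize coord13 b c = x at hx0 hx1 ⊢
  field_simp
  ring

/-- The `j`-invariant as a function of the Hauptmodul of `X₀(13)`. -/
theorem j_thirteen [DecidableEq K] {b c : K} (h : IsOrder 13 b c) :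
    (tateCurve b c).c₄ ^ 3 * haupt13 b c
      = (haupt13 b c ^ 2 + 5 * haupt13 b c + 13)
        * (haupt13 b c ^ 4 + 7 * haupt13 b c ^ 3 + 20 * haupt13 b c ^ 2 + 19 * haupt13 b c + 1) ^ 3
        * (tateCurve b c).Δ := by
  obtain ⟨hx0, hx1⟩ := coord13_ne_zero h
  obtain ⟨r, s, rfl, rfl, hr0, hr1, hs0, hs1, hrs, hF, hN, hx⟩ := coord13_facts h
  rw [c4_tateCurve, Δ_tateCurve]
  have h1 : (1 : K) - r ≠ 0 := sub_ne_zero.mpr (Ne.symm hr1)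
  have h2 : (1 : K) - s ≠ 0 := sub_ne_zero.mpr (Ne.symm hs1)
  have h3 : s - r ≠ 0 := sub_ne_zero.mpr (Ne.symm hrs)
  simp only [haupt13]
  generalize hxdef : coord13 (r * (s * (r - 1))) (s * (r - 1)) = x at hx hx0 hx1 ⊢
  obtain ⟨y, hy⟩ : ∃ y : K, y = (s - r) / (1 - s) := ⟨_, rfl⟩
  have hy0 : y ≠ 0 := by rw [hy]; exact div_ne_zero h3 h2
  have hy1 : y + 1 ≠ 0 := by
    rw [hy, div_add_one h2]; refine div_ne_zero (fun e => h1 ?_) h2; linear_combination e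
  have hr : r = 1 - x * y := by rw [hx, hy]; field_simp; ring
  have hs : s = (y + 1 - x * y) / (y + 1) := by
    rw [eq_div_iff hy1]; rw [hx, hy]; field_simp; ring
  have hG : y ^ 2 + (x ^ 3 + x ^ 2 + 1) * y - x ^ 2 - x = 0 := by
    rw [hx, hy]; field_simp
    linear_combination ((r - 1) * (1 : K)) * hF
  have hA := c4_thirteen_poly hG
  have hB := Δ_thirteen_poly hG
  subst hr hs
  clear hy hx hxdef hG hF hN hrs hs0 hs1 h1 h2 h3 hr0 hr1 h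
  -- both sides are expressed through `(x² + x + 1)`, the quartic and `κ`
  set κ : K := y ^ 5 * ((x + 1) ^ 2 - (x ^ 2 - x - 1) * y) / (x * (x + 1) ^ 2 * (y + 1)) with hκ
  set t : K := -(x ^ 3 + 4 * x ^ 2 + x - 1) / (x * (x + 1)) with ht
  generalize hb : (1 - x * y) * ((y + 1 - x * y) / (y + 1) * (1 - x * y - 1)) = b
  generalize hc : (y + 1 - x * y) / (y + 1) * (1 - x * y - 1) = c
  have e4 : ((1 - c) ^ 2 - 4 * b) ^ 2 + 24 * b * (1 - c)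
      = (x ^ 2 + x + 1) * (t ^ 4 + 7 * t ^ 3 + 20 * t ^ 2 + 19 * t + 1) * κ := by
    have hn : t ^ 4 + 7 * t ^ 3 + 20 * t ^ 2 + 19 * t + 1
        = ((-(x ^ 3 + 4 * x ^ 2 + x - 1)) ^ 4
        + 7 * (-(x ^ 3 + 4 * x ^ 2 + x - 1)) ^ 3 * (x * (x + 1))
        + 20 * (-(x ^ 3 + 4 * x ^ 2 + x - 1)) ^ 2 * (x * (x + 1)) ^ 2
        + 19 * (-(x ^ 3 + 4 * x ^ 2 + x - 1)) * (x * (x + 1)) ^ 3 + (x * (x + 1)) ^ 4)
        / (x * (x + 1)) ^ 4 := by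
      rw [ht]; field_simp
    rw [hn, hκ, ← hb, ← hc]
    generalize ((-(x ^ 3 + 4 * x ^ 2 + x - 1)) ^ 4
        + 7 * (-(x ^ 3 + 4 * x ^ 2 + x - 1)) ^ 3 * (x * (x + 1))
        + 20 * (-(x ^ 3 + 4 * x ^ 2 + x - 1)) ^ 2 * (x * (x + 1)) ^ 2
        + 19 * (-(x ^ 3 + 4 * x ^ 2 + x - 1)) * (x * (x + 1)) ^ 3 + (x * (x + 1)) ^ 4) = N at hA ⊢
    field_simp
    linear_combination hA
  have eD : b ^ 3 * (16 * b ^ 2 - 8 * b * c ^ 2 - 20 * b * c + b + c * (c - 1) ^ 3)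
      = -(x * (x + 1)) * (x ^ 3 + 4 * x ^ 2 + x - 1) * κ ^ 3 := by
    have eb : b = -(x * y * (1 - x * y) * (y + 1 - x * y)) / (y + 1) := by
      rw [← hb]; field_simp; ring
    have ec : c = -(x * y * (y + 1 - x * y)) / (y + 1) := by
      rw [← hc]; field_simp; ring
    rw [hκ, eb, ec]
    generalize (x + 1) ^ 2 - (x ^ 2 - x - 1) * y = L at hB ⊢
    generalize (1 : K) - x * y = P at hB ⊢
    generalize y + 1 - x * y = Q at hB ⊢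
    generalize y + 1 = D at hy1 hB ⊢
    generalize x ^ 3 + 4 * x ^ 2 + x - 1 = T at hB ⊢
    generalize x + 1 = X₁ at hx1 hB ⊢
    field_simp
    refine mul_left_cancel₀ (mul_ne_zero hy0 hx1) ?_
    linear_combination (-1 : K) * hB
  have eq : t ^ 2 + 5 * t + 13 = (x ^ 2 + x + 1) ^ 3 / (x * (x + 1)) ^ 2 := by
    rw [ht]; field_simp; ring
  rw [e4, eD, eq]
  generalize t ^ 4 + 7 * t ^ 3 + 20 * t ^ 2 + 19 * t + 1 = R
  rw [ht]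
  field_simp

end Fermat.Agent.SmallPrimes
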