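import Mathlib

/-!
# Changes of variables on the points of a Weierstrass curve

`oldPoint` is the injective homomorphism from the points of `C • W` to those of `W`.
-/

set_option autoImplicit false

open WeierstrassCurve WeierstrassCurve.Affine

namespace Fermat.Agent.SmallPrimes

variable {K : Type*} [Field K] (W : WeierstrassCurve K) (C : VariableChange K)

/-- The old `X`-coordinate of a point in new coordinates. -/
def oldX (x : K) : K := (C.u : K) ^ 2 * x + C.r

/-- The old `Y`-coordinate of a point in new coordinates. -/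
def oldY (x y : K) : K := (C.u : K) ^ 3 * y + (C.u : K) ^ 2 * C.s * x + C.t

lemma coeff_a₁ : W.a₁ = (C.u : K) * (C • W).a₁ - 2 * C.s := by
  rw [variableChange_a₁, Units.val_inv_eq_inv_val]; field_simp; ring

lemma coeff_a₂ : W.a₂ = (C.u : K) ^ 2 * (C • W).a₂ + C.s * W.a₁ - 3 * C.r + C.s ^ 2 := by
  rw [variableChange_a₂, Units.val_inv_eq_inv_val]; field_simp; ring

lemma coeff_a₃ : W.a₃ = (C.u : K) ^ 3 * (C • W).a₃ - C.r * W.a₁ - 2 * C.t := by
  rw [variableChange_a₃, Units.val_inv_eq_inv_val]; field_simp; ring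

lemma coeff_a₄ : W.a₄ = (C.u : K) ^ 4 * (C • W).a₄ + C.s * W.a₃ - 2 * C.r * W.a₂
    + (C.t + C.r * C.s) * W.a₁ - 3 * C.r ^ 2 + 2 * C.s * C.t := by
  rw [variableChange_a₄, Units.val_inv_eq_inv_val]; field_simp; ring

lemma coeff_a₆ : W.a₆ = (C.u : K) ^ 6 * (C • W).a₆ - C.r * W.a₄ - C.r ^ 2 * W.a₂ - C.r ^ 3
    + C.t * W.a₃ + C.t ^ 2 + C.r * C.t * W.a₁ := by
  rw [variableChange_a₆, Units.val_inv_eq_inv_val]; field_simp; ring

lemma negY_old (x y : K) :
    W.toAffine.negY (oldX C x) (oldY C x y) = oldY C x ((C • W).toAffine.negY x y) := by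
  simp only [Affine.negY, oldX, oldY]
  rw [coeff_a₃ W C, coeff_a₁ W C]; ring

lemma equation_old {x y : K} (h : (C • W).toAffine.Equation x y) :
    W.toAffine.Equation (oldX C x) (oldY C x y) := by
  rw [Affine.equation_iff] at h ⊢
  simp only [oldX, oldY]
  rw [coeff_a₆ W C, coeff_a₄ W C, coeff_a₃ W C, coeff_a₂ W C, coeff_a₁ W C]
  linear_combination (C.u : K) ^ 6 * h

lemma nonsingular_old {x y : K} (h : (C • W).toAffine.Nonsingular x y) :
    W.toAffine.Nonsingular (oldX C x) (oldY C x y) := by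
  have hu : (C.u : K) ≠ 0 := C.u.ne_zero
  rw [Affine.nonsingular_iff] at h ⊢
  refine ⟨equation_old W C h.1, ?_⟩
  by_contra hc
  simp only [not_or, not_not] at hc
  obtain ⟨hX, hY⟩ := hc
  simp only [oldX, oldY] at hX hY
  rw [coeff_a₃ W C, coeff_a₁ W C] at hY
  rw [coeff_a₄ W C, coeff_a₃ W C, coeff_a₂ W C, coeff_a₁ W C] at hX
  refine h.2.elim (fun hx => hx ?_) (fun hy => hy ?_)
  · refine mul_left_cancel₀ (pow_ne_zero 4 hu) ?_
    linear_combination hX + C.s * hY
  · refine mul_left_cancel₀ (pow_ne_zero 3 hu) ?_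
    linear_combination hY

lemma oldX_injective : Function.Injective (oldX C) := fun x x' h => by
  simpa [oldX, C.u.ne_zero] using h

lemma oldY_eq_iff {x x' y y' : K} (hx : x = x') :
    oldY C x y = oldY C x' y' ↔ y = y' := by
  subst hx; simp [oldY, C.u.ne_zero]

variable [DecidableEq K]

lemma slope_old {x₁ x₂ y₁ y₂ : K} (h₁ : (C • W).toAffine.Nonsingular x₁ y₁)
    (h₂ : (C • W).toAffine.Nonsingular x₂ y₂)
    (hxy : ¬(x₁ = x₂ ∧ y₁ = (C • W).toAffine.negY x₂ y₂)) :
    W.toAffine.slope (oldX C x₁) (oldX C x₂) (oldY C x₁ y₁) (oldY C x₂ y₂)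
      = (C.u : K) * (C • W).toAffine.slope x₁ x₂ y₁ y₂ + C.s := by
  have hu : (C.u : K) ≠ 0 := C.u.ne_zero
  rcases eq_or_ne x₁ x₂ with rfl | hx
  · have hy : y₁ ≠ (C • W).toAffine.negY x₁ y₂ := fun e => hxy ⟨rfl, e⟩
    have hyy : y₁ = y₂ := Affine.Y_eq_of_Y_ne h₁.1 h₂.1 rfl hy
    subst hyy
    have hy' : oldY C x₁ y₁ ≠ W.toAffine.negY (oldX C x₁) (oldY C x₁ y₁) := by
      rw [negY_old]; exact fun e => hy ((oldY_eq_iff C rfl).mp e)
    have hd : y₁ - (C • W).toAffine.negY x₁ y₁ ≠ 0 := sub_ne_zero.mpr hy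
    rw [Affine.slope_of_Y_ne rfl hy', Affine.slope_of_Y_ne rfl hy, negY_old]
    have e : oldY C x₁ y₁ - oldY C x₁ ((C • W).toAffine.negY x₁ y₁)
        = (C.u : K) ^ 3 * (y₁ - (C • W).toAffine.negY x₁ y₁) := by
      simp only [oldY]; ring
    rw [e, div_eq_iff (mul_ne_zero (pow_ne_zero 3 hu) hd)]
    have e2 : ((C.u : K) * ((3 * x₁ ^ 2 + 2 * (C • W).a₂ * x₁ + (C • W).a₄ - (C • W).a₁ * y₁)
          / (y₁ - (C • W).toAffine.negY x₁ y₁)) + C.s)
        * ((C.u : K) ^ 3 * (y₁ - (C • W).toAffine.negY x₁ y₁))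
        = (C.u : K) ^ 4 * (3 * x₁ ^ 2 + 2 * (C • W).a₂ * x₁ + (C • W).a₄ - (C • W).a₁ * y₁)
          + C.s * ((C.u : K) ^ 3 * (y₁ - (C • W).toAffine.negY x₁ y₁)) := by
      field_simp
    refine Eq.trans ?_ e2.symm
    simp only [Affine.negY, WeierstrassCurve.toAffine, oldX, oldY]
    rw [coeff_a₄ W C, coeff_a₃ W C, coeff_a₂ W C, coeff_a₁ W C]
    ring
  · have hx' : oldX C x₁ ≠ oldX C x₂ := fun e => hx (oldX_injective C e)
    rw [Affine.slope_of_X_ne hx', Affine.slope_of_X_ne hx]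
    simp only [oldX, oldY]
    have e : (C.u : K) ^ 2 * x₁ + C.r - ((C.u : K) ^ 2 * x₂ + C.r) = (C.u : K) ^ 2 * (x₁ - x₂) := by
      ring
    rw [e]
    field_simp
    ring

/-- The underlying function of `oldPoint`. -/
def oldPointFun : (C • W).toAffine.Point → W.toAffine.Point
  | 0 => 0
  | .some _ _ h => .some _ _ (nonsingular_old W C h)

/-- A change of variables as a homomorphism of point groups. -/
noncomputable def oldPoint : (C • W).toAffine.Point →+ W.toAffine.Point where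
  toFun := oldPointFun W C
  map_zero' := rfl
  map_add' := by
    rintro (_ | ⟨x₁, y₁, h₁⟩) (_ | ⟨x₂, y₂, h₂⟩)
    any_goals rfl
    by_cases hxy : x₁ = x₂ ∧ y₁ = (C • W).toAffine.negY x₂ y₂
    · rw [Point.add_of_Y_eq hxy.1 hxy.2]
      simp only [oldPointFun]
      rw [Point.add_of_Y_eq (by rw [hxy.1]) (by rw [hxy.1, hxy.2, negY_old])]
    · have hxy' : ¬(oldX C x₁ = oldX C x₂ ∧
          oldY C x₁ y₁ = W.toAffine.negY (oldX C x₂) (oldY C x₂ y₂)) := fun ⟨e1, e2⟩ =>
        hxy ⟨oldX_injective C e1, (oldY_eq_iff C (oldX_injective C e1)).mp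
          (negY_old W C x₂ y₂ ▸ e2)⟩
      rw [Point.add_some hxy]
      simp only [oldPointFun]
      rw [Point.add_some hxy']
      simp only [Point.some.injEq]
      have hs := slope_old W C h₁ h₂ hxy
      constructor
      · simp only [Affine.addX, hs]
        simp only [oldX, WeierstrassCurve.toAffine]
        rw [coeff_a₂ W C, coeff_a₁ W C]; ring
      · simp only [Affine.addY, Affine.negAddY, Affine.negY, Affine.addX, hs]
        simp only [oldX, oldY, WeierstrassCurve.toAffine]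
        rw [coeff_a₃ W C, coeff_a₂ W C, coeff_a₁ W C]; ring

lemma oldPoint_some {x y : K} (h : (C • W).toAffine.Nonsingular x y) :
    oldPoint W C (.some _ _ h) = .some _ _ (nonsingular_old W C h) := rfl

lemma oldPoint_injective : Function.Injective (oldPoint W C) := by
  rintro (_ | ⟨x, y, h⟩) (_ | ⟨x', y', h'⟩) e
  · rfl
  · exact absurd e.symm (Point.some_ne_zero _)
  · exact absurd e (Point.some_ne_zero _)
  · rw [oldPoint_some, oldPoint_some, Point.some.injEq] at e
    have hx := oldX_injective C e.1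
    simp [hx, (oldY_eq_iff C hx).mp e.2]

end Fermat.Agent.SmallPrimes
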